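import Mathlib
import Fermat.Agent.S18.NonSpecial
import Fermat.Agent.S18.CoreDefs
import Fermat.Agent.S18.A.RiemannBasic

/-!
# PROJECT I (S37), slice I-1D: Deuring's lattice reduction of a valued function field

Abstract setting: a function field `FL / L` over a valued field `(L, A)`, a function field `Fk / k`
over the residue field, and a "Gauss datum" `G` (a valuation ring `O` of `FL` above `A` with
reduction map `red : O → Fk`).  Assuming Riemann's theorem on both sides with `gL ≤ gk`, the
orthonormal-basis property `(OB)` and the fundamental inequality `(FI)`, we construct a place map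
`r : Place L FL → Place k Fk` such that `r_* div(u) = div(red u)` for every unit `u` of `O`.

The construction is Deuring's: for a large effective divisor `D`, the reduction of the lattice
`L(D) ∩ O` is `L(D̄)` for a divisor `D̄` of the same degree; `D ↦ D̄` is additive and
`r(P) := (D + P)‾ - D̄`.
-/

set_option autoImplicit false
set_option linter.unusedSectionVars false

noncomputable section

namespace Fermat.Agent.S37.Deuring.Core

open AlgebraicCurve Fermat.Agent.S18.NonSpecial

variable {L : Type*} [Field L] {k : Type*} [Field k]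

/-- A Gauss datum: `S18.CoreDefs.RedDatum` without the place map and its compatibility. -/
structure GaussDatum (A : ValuationSubring L) (π : A →+* k)
    (FL : Type*) [Field FL] [Algebra L FL] (Fk : Type*) [Field Fk] [Algebra k Fk] where
  /-- the Gauss valuation ring of `FL` -/
  O : ValuationSubring FL
  /-- the reduction homomorphism -/
  red : O →+* Fk
  /-- the residue map of the base is onto -/
  pi_surjective : Function.Surjective π
  /-- constants of `A` are Gauss-integral -/
  algebraMap_mem : ∀ a : A, algebraMap L FL (a : L) ∈ O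
  /-- `red` restricted to constants is `π` -/
  red_algebraMap : ∀ a : A, red ⟨algebraMap L FL (a : L), algebraMap_mem a⟩ = algebraMap k Fk (π a)
  /-- the kernel of `red` is the maximal ideal of `O` -/
  red_eq_zero_iff : ∀ u : O, red u = 0 ↔ ¬ IsUnit u
  /-- the value group of `O` is that of `A` -/
  exists_const_mul_unit : ∀ f : FL, f ≠ 0 →
    ∃ c : L, c ≠ 0 ∧ ∃ u : Oˣ, f = algebraMap L FL c * ((u : O) : FL)
  /-- `O ∩ L = A` -/
  mem_of_algebraMap_mem : ∀ c : L, algebraMap L FL c ∈ O → c ∈ A

variable {A : ValuationSubring L} {π : A →+* k}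
variable {FL : Type*} [Field FL] [Algebra L FL] {Fk : Type*} [Field Fk] [Algebra k Fk]

namespace GaussDatum

variable (G : GaussDatum A π FL Fk)

/-- the constant `a ∈ A` as an element of `O` -/
def const (a : A) : G.O := ⟨algebraMap L FL (a : L), G.algebraMap_mem a⟩

@[simp] theorem coe_const (a : A) : ((G.const a : G.O) : FL) = algebraMap L FL (a : L) := rfl

@[simp] theorem red_const (a : A) : G.red (G.const a) = algebraMap k Fk (π a) := G.red_algebraMap a

/-- The reduction of the lattice `L(D) ∩ O`, a `k`-subspace of `Fk`. -/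
def redSpace (D : Divisor L FL) : Submodule k Fk where
  carrier := {y | ∃ f : G.O, (f : FL) ∈ riemannRochSpace D ∧ G.red f = y}
  zero_mem' := ⟨0, by simp, map_zero _⟩
  add_mem' := by
    rintro _ _ ⟨f, hf, rfl⟩ ⟨g, hg, rfl⟩
    exact ⟨f + g, by simpa using add_mem hf hg, map_add _ _ _⟩
  smul_mem' := by
    rintro c _ ⟨f, hf, rfl⟩
    obtain ⟨a, rfl⟩ := G.pi_surjective c
    refine ⟨G.const a * f, ?_, ?_⟩
    · have : ((G.const a * f : G.O) : FL) = (a : L) • (f : FL) := by
        rw [Algebra.smul_def]; rfl
      rw [this]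
      exact Submodule.smul_mem _ _ hf
    · rw [map_mul, red_const, Algebra.smul_def]

theorem mem_redSpace {D : Divisor L FL} {y : Fk} :
    y ∈ G.redSpace D ↔ ∃ f : G.O, (f : FL) ∈ riemannRochSpace D ∧ G.red f = y := Iff.rfl

theorem redSpace_mono {D D' : Divisor L FL} (h : D ≤ D') : G.redSpace D ≤ G.redSpace D' := by
  rintro _ ⟨f, hf, rfl⟩
  exact ⟨f, riemannRochSpace_mono h hf, rfl⟩

theorem one_mem_redSpace {D : Divisor L FL} (hD : 0 ≤ D) : (1 : Fk) ∈ G.redSpace D :=
  ⟨1, by simpa using one_mem_riemannRochSpace hD, map_one _⟩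

theorem mul_mem_redSpace {D D' : Divisor L FL} {y y' : Fk} (hy : y ∈ G.redSpace D)
    (hy' : y' ∈ G.redSpace D') : y * y' ∈ G.redSpace (D + D') := by
  obtain ⟨f, hf, rfl⟩ := hy
  obtain ⟨f', hf', rfl⟩ := hy'
  refine ⟨f * f', ?_, map_mul _ _ _⟩
  rw [mem_riemannRochSpace_iff] at hf hf' ⊢
  intro v
  by_cases h0 : (f : FL) = 0
  · left; simp [h0]
  by_cases h0' : (f' : FL) = 0
  · left; simp [h0']
  right
  have h1 := (hf v).resolve_left h0
  have h2 := (hf' v).resolve_left h0'
  have : ((f * f' : G.O) : FL) = (f : FL) * (f' : FL) := rfl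
  rw [this, v.ord_mul h0 h0', Finsupp.add_apply]
  omega

/-! ### Lifting linear independence -/

/-- Among finitely many elements of `L`, not all zero, one has maximal valuation. -/
theorem exists_max_const {ι : Type*} (s : Finset ι) (c : ι → L) (hc : ∃ i ∈ s, c i ≠ 0) :
    ∃ i₀ ∈ s, c i₀ ≠ 0 ∧ ∀ i ∈ s, c i / c i₀ ∈ A := by
  obtain ⟨i₁, hi₁, hne⟩ := hc
  obtain ⟨i₀, hi₀, hmax⟩ := Finset.exists_max_image s (fun i => A.valuation (c i)) ⟨i₁, hi₁⟩
  have h0 : c i₀ ≠ 0 := by
    intro h
    have := hmax i₁ hi₁
    rw [h, map_zero] at this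
    exact hne ((map_eq_zero _).mp (le_antisymm this zero_le))
  refine ⟨i₀, hi₀, h0, fun i hi => ?_⟩
  rw [← A.valuation_le_one_iff, map_div₀]
  exact div_le_one_of_le₀ (hmax i hi) zero_le

/-- `k`-linearly independent reductions lift to `L`-linearly independent elements. -/
theorem linearIndependent_of_red {ι : Type*} [Fintype ι] (f : ι → G.O)
    (h : LinearIndependent k fun i => G.red (f i)) :
    LinearIndependent L fun i => ((f i : G.O) : FL) := by
  classical
  rw [Fintype.linearIndependent_iff]
  intro c hc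
  by_contra hne
  push Not at hne
  obtain ⟨i₁, hi₁⟩ := hne
  obtain ⟨i₀, -, h0, hA⟩ := exists_max_const (A := A) Finset.univ c ⟨i₁, Finset.mem_univ _, hi₁⟩
  set a : ι → A := fun i => ⟨c i / c i₀, hA i (Finset.mem_univ _)⟩ with ha
  have hsum : ∑ i, G.const (a i) * f i = 0 := by
    apply Subtype.ext
    have h1 : ((∑ i, G.const (a i) * f i : G.O) : FL) = ∑ i, (c i / c i₀) • ((f i : G.O) : FL) := by
      rw [show ((∑ i, G.const (a i) * f i : G.O) : FL)
        = G.O.subtype (∑ i, G.const (a i) * f i) from rfl, map_sum]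
      refine Finset.sum_congr rfl fun i _ => ?_
      rw [Algebra.smul_def]
      rfl
    rw [h1]
    have h2 : ∑ i, (c i / c i₀) • ((f i : G.O) : FL) = (c i₀)⁻¹ • ∑ i, c i • ((f i : G.O) : FL) := by
      rw [Finset.smul_sum]
      refine Finset.sum_congr rfl fun i _ => ?_
      rw [smul_smul, div_eq_inv_mul]
    rw [h2, hc, smul_zero]
    rfl
  have hred := congrArg G.red hsum
  rw [map_sum, map_zero] at hred
  simp only [map_mul, red_const] at hred
  have hred' : ∑ i, π (a i) • G.red (f i) = 0 := by
    rw [← hred]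
    refine Finset.sum_congr rfl fun i _ => ?_
    rw [Algebra.smul_def]
  have := (Fintype.linearIndependent_iff.mp h) (fun i => π (a i)) hred' i₀
  have h1 : a i₀ = 1 := by
    apply Subtype.ext
    simp [ha, div_self h0]
  rw [h1, map_one] at this
  exact one_ne_zero this

theorem card_le_ell_of_linearIndependent
    (D : Divisor L FL) [Module.Finite L (riemannRochSpace D)]
    {ι : Type*} [Fintype ι] (y : ι → Fk) (hs : ∀ i, y i ∈ G.redSpace D)
    (hli : LinearIndependent k y) : Fintype.card ι ≤ ell D := by
  classical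
  choose f hf hfy using hs
  have hli' : LinearIndependent k fun i => G.red (f i) := by
    have : (fun i => G.red (f i)) = y := funext hfy
    rw [this]
    exact hli
  have hL := G.linearIndependent_of_red f hli'
  -- the lifted family lives in `L(D)`
  let g : ι → riemannRochSpace D := fun i => ⟨(f i : FL), hf i⟩
  have hg : LinearIndependent L g := by
    apply LinearIndependent.of_comp (riemannRochSpace D).subtype
    exact hL
  have := hg.fintype_card_le_finrank
  simpa [ell] using this

theorem rank_redSpace_le (D : Divisor L FL) [Module.Finite L (riemannRochSpace D)] :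
    Module.rank k (G.redSpace D) ≤ (ell D : ℕ) := by
  classical
  apply rank_le
  intro s hs
  have h1 : LinearIndependent k (fun i : s => (G.redSpace D).subtype (i : G.redSpace D)) :=
    hs.map' _ (Submodule.ker_subtype _)
  have := G.card_le_ell_of_linearIndependent D
    (fun i : s => (G.redSpace D).subtype (i : G.redSpace D)) (fun i => (i : G.redSpace D).2) h1
  rwa [Fintype.card_coe] at this

theorem finite_redSpace (D : Divisor L FL) [Module.Finite L (riemannRochSpace D)] :
    Module.Finite k (G.redSpace D) := by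
  rw [← Module.rank_lt_aleph0_iff]
  exact lt_of_le_of_lt (G.rank_redSpace_le D) (Cardinal.natCast_lt_aleph0)

theorem finrank_redSpace_le (D : Divisor L FL) [Module.Finite L (riemannRochSpace D)] :
    Module.finrank k (G.redSpace D) ≤ ell D := by
  have := G.rank_redSpace_le D
  exact Module.finrank_le_of_rank_le this

end GaussDatum

/-! ### Pole bounds of finite-dimensional spaces of functions -/

section PoleBound

variable {K : Type*} [Field K] {F : Type*} [Field F] [Algebra K F]

/-- `E` is the smallest divisor with `V ⊆ L(E)`. -/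
def IsPoleBound (V : Submodule K F) (E : Divisor K F) : Prop :=
  V ≤ riemannRochSpace E ∧ ∀ Q : Place K F, ∃ y ∈ V, y ≠ 0 ∧ Q.ord y = - E Q

theorem IsPoleBound.le_of_le {V V' : Submodule K F} {E E' : Divisor K F} (hV : V ≤ V')
    (h : IsPoleBound V E) (h' : IsPoleBound V' E') : E ≤ E' := by
  rw [Finsupp.le_def]
  intro Q
  obtain ⟨y, hyV, hy0, hy⟩ := h.2 Q
  have := ((mem_riemannRochSpace_iff.mp (h'.1 (hV hyV))) Q).resolve_left hy0
  omega

theorem IsPoleBound.unique {V : Submodule K F} {E E' : Divisor K F}
    (h : IsPoleBound V E) (h' : IsPoleBound V E') : E = E' :=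
  le_antisymm (h.le_of_le le_rfl h') (h'.le_of_le le_rfl h)

theorem exists_isPoleBound [HasPrincipalDivisors K F] (V : Submodule K F) [Module.Finite K V]
    (hV : V ≠ ⊥) : ∃ E : Divisor K F, IsPoleBound V E := by
  classical
  obtain ⟨S, hS⟩ : V.FG := (Submodule.fg_top V).mp Module.Finite.fg_top
  set S' := S.erase 0 with hS'
  have hspan : Submodule.span K (S' : Set F) = V := by
    rw [← hS, hS', Finset.coe_erase, Submodule.span_sdiff_singleton_zero]
  have hne : S'.Nonempty := by
    rw [Finset.nonempty_iff_ne_empty]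
    intro h
    rw [h, Finset.coe_empty, Submodule.span_empty] at hspan
    exact hV hspan.symm
  have hmemV : ∀ y ∈ S', y ∈ V := fun y hy => hspan ▸ Submodule.subset_span hy
  have hne0 : ∀ y ∈ S', y ≠ 0 := fun y hy => (Finset.mem_erase.mp hy).1
  let e : Place K F → ℤ := fun Q => S'.sup' hne fun y => - Q.ord y
  have hfin : (Function.support e).Finite := by
    have hsub : Function.support e ⊆ ⋃ y ∈ S', {Q : Place K F | Q.ord y ≠ 0} := by
      intro Q hQ
      by_contra hcon
      simp only [Set.mem_iUnion, Set.mem_ofPred_eq, not_exists, not_not] at hcon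
      apply hQ
      show S'.sup' hne (fun y => - Q.ord y) = 0
      apply le_antisymm
      · apply Finset.sup'_le
        intro y hy
        rw [hcon y hy]; simp
      · obtain ⟨y, hy⟩ := hne
        have := Finset.le_sup' (fun y => - Q.ord y) hy
        rw [hcon y hy] at this
        simpa using this
    refine Set.Finite.subset ?_ hsub
    refine Set.Finite.biUnion S'.finite_toSet fun y hy => ?_
    obtain ⟨D, hD, -⟩ := HasPrincipalDivisors.exists_divisor (K := K) y (hne0 y hy)
    refine D.support.finite_toSet.subset fun Q hQ => ?_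
    rw [Finset.mem_coe, Finsupp.mem_support_iff, hD Q]
    exact hQ
  refine ⟨Finsupp.ofSupportFinite e hfin, ?_, ?_⟩
  · rw [← hspan, Submodule.span_le]
    intro y hy
    rw [SetLike.mem_coe, mem_riemannRochSpace_iff]
    intro Q
    right
    rw [Finsupp.ofSupportFinite_coe]
    have := Finset.le_sup' (fun y => - Q.ord y) (Finset.mem_coe.mp hy)
    show - e Q ≤ _
    have h2 : - Q.ord y ≤ e Q := this
    omega
  · intro Q
    obtain ⟨y, hy, hye⟩ := Finset.exists_mem_eq_sup' hne fun y => - Q.ord y
    refine ⟨y, hmemV y hy, hne0 y hy, ?_⟩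
    rw [Finsupp.ofSupportFinite_coe]
    show _ = - e Q
    have h2 : e Q = - Q.ord y := hye
    omega

/-- A generic element of `V` has exactly the poles prescribed by the pole bound on a given finite
set of places. -/
theorem IsPoleBound.exists_generic [Infinite K] {V : Submodule K F} {E : Divisor K F}
    (h : IsPoleBound V E) (hV : V ≠ ⊥) (S : Finset (Place K F)) :
    ∃ y ∈ V, y ≠ 0 ∧ ∀ Q ∈ S, Q.ord y = - E Q := by
  classical
  let p : Option S → Submodule K V := fun o =>
    match o with
    | none => ⊥
    | some Q => (riemannRochSpace (E - Finsupp.single (Q : Place K F) 1)).comap V.subtype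
  have hp : ∀ o, p o ≠ ⊤ := by
    intro o
    cases o with
    | none =>
      show (⊥ : Submodule K V) ≠ ⊤
      intro hbt
      apply hV
      rw [Submodule.eq_bot_iff]
      intro x hx
      have : (⟨x, hx⟩ : V) ∈ (⊥ : Submodule K V) := hbt ▸ Submodule.mem_top
      simpa using this
    | some Q =>
      intro htop
      obtain ⟨y, hyV, hy0, hy⟩ := h.2 (Q : Place K F)
      have hmem : (⟨y, hyV⟩ : V) ∈ p (some Q) := htop ▸ Submodule.mem_top
      have hmem' : y ∈ riemannRochSpace (E - Finsupp.single (Q : Place K F) 1) := hmem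
      have := ((mem_riemannRochSpace_iff.mp hmem') Q).resolve_left hy0
      rw [Finsupp.sub_apply, Finsupp.single_eq_same] at this
      omega
  obtain ⟨x, hx⟩ := Submodule.exists_forall_notMem_of_forall_ne_top p hp
  have hx0 : (x : F) ≠ 0 := by
    intro h0
    apply hx none
    show x ∈ (⊥ : Submodule K V)
    rw [Submodule.mem_bot]
    exact Subtype.ext h0
  refine ⟨x, x.2, hx0, fun Q hQ => ?_⟩
  have hnot : (x : F) ∉ riemannRochSpace (E - Finsupp.single Q 1) := fun hmem => hx (some ⟨Q, hQ⟩) hmem
  have hin : (x : F) ∈ riemannRochSpace (E - Finsupp.single Q 1 + Finsupp.single Q 1) := by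
    rw [sub_add_cancel]
    exact h.1 x.2
  have h1 := (ord_lt_of_mem_of_not_mem hin hnot).2
  rw [Finsupp.sub_apply, Finsupp.single_eq_same] at h1
  have h2 := ((mem_riemannRochSpace_iff.mp (h.1 x.2)) Q).resolve_left hx0
  omega

/-- `D` is the divisor of poles of `x`. -/
def IsPoleDiv (x : F) (D : Divisor K F) : Prop := ∀ v : Place K F, D v = max 0 (- v.ord x)

theorem exists_isPoleDiv [HasPrincipalDivisors K F] {x : F} (hx : x ≠ 0) :
    ∃ D : Divisor K F, IsPoleDiv x D := by
  obtain ⟨D, hD, -⟩ := HasPrincipalDivisors.exists_divisor (K := K) x hx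
  refine ⟨D.mapRange (fun n => max 0 (-n)) (by simp), fun v => ?_⟩
  rw [Finsupp.mapRange_apply, hD v]

theorem IsPoleDiv.nonneg {x : F} {D : Divisor K F} (h : IsPoleDiv x D) : 0 ≤ D := by
  rw [Finsupp.le_def]
  intro v
  rw [h v]
  simp

theorem degree_le_of_le {D D' : Divisor K F} (h : D ≤ D') :
    Divisor.degree D ≤ Divisor.degree D' := by
  have h1 : 0 ≤ D' - D := sub_nonneg.mpr h
  have := Fermat.Agent.S18.A.Riemann.degree_nonneg h1
  rw [map_sub] at this
  linarith

end PoleBound

/-! ### The hypotheses of Deuring's theorem -/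

namespace GaussDatum

variable (G : GaussDatum A π FL Fk)

/-- **(OB)** the reduction of the lattice `L(D) ∩ O` is as large as `L(D)` (existence of
orthonormal bases), for effective `D`. -/
def OB : Prop := ∀ D : Divisor L FL, 0 ≤ D → ell D ≤ Module.finrank k (G.redSpace D)

/-- **(FI)** the fundamental inequality: reduction does not increase the degree of a function. -/
def FI : Prop := ∀ (u : G.O) (Du : Divisor L FL) (Dy : Divisor k Fk),
  (∀ c : k, G.red u ≠ algebraMap k Fk c) → IsPoleDiv ((u : G.O) : FL) Du →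
    IsPoleDiv (G.red u) Dy → Divisor.degree Dy ≤ Divisor.degree Du

end GaussDatum

/-- The hypotheses of Deuring's theorem, bundled. -/
structure Hyp (G : GaussDatum A π FL Fk) (gL gk : ℕ) : Prop where
  riemannL : RiemannHyp L FL gL
  riemannK : RiemannHyp k Fk gk
  genus_le : gL ≤ gk
  ob : G.OB
  fi : G.FI

section Main

variable {G : GaussDatum A π FL Fk} {gL gk : ℕ}
variable [HasPrincipalDivisors L FL] [HasPrincipalDivisors k Fk] [Infinite k]

theorem finite_redSpace' (H : Hyp G gL gk) (D : Divisor L FL) : Module.Finite k (G.redSpace D) :=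
  haveI := H.riemannL.finite D
  G.finite_redSpace D

theorem redSpace_ne_bot {D : Divisor L FL} (hD : 0 ≤ D) : G.redSpace D ≠ ⊥ := by
  intro h
  have := G.one_mem_redSpace hD
  rw [h, Submodule.mem_bot] at this
  exact one_ne_zero this

/-- pole bounds of `redSpace D` are effective when `D` is -/
theorem IsPoleBound.nonneg_of_redSpace {D : Divisor L FL} (hD : 0 ≤ D) {E : Divisor k Fk}
    (hE : IsPoleBound (G.redSpace D) E) : 0 ≤ E := by
  rw [Finsupp.le_def]
  intro Q
  have := ((mem_riemannRochSpace_iff.mp (hE.1 (G.one_mem_redSpace hD))) Q).resolve_left one_ne_zero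
  rw [Place.ord_one] at this
  simp only [Finsupp.coe_zero, Pi.zero_apply]
  omega

/-- **Step 1**: `deg D̄ ≤ deg D`. -/
theorem degree_poleBound_le (H : Hyp G gL gk) {D : Divisor L FL} (hD : 0 ≤ D) {E : Divisor k Fk}
    (hE : IsPoleBound (G.redSpace D) E) : Divisor.degree E ≤ Divisor.degree D := by
  classical
  have hE0 := hE.nonneg_of_redSpace hD
  by_cases hEz : E = 0
  · rw [hEz, map_zero]
    exact Fermat.Agent.S18.A.Riemann.degree_nonneg hD
  obtain ⟨y, hyV, hy0, hy⟩ := hE.exists_generic (redSpace_ne_bot hD) E.support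
  obtain ⟨f, hf, rfl⟩ := hyV
  -- `E` is the pole divisor of `y`
  have hpoleY : IsPoleDiv (G.red f) E := by
    intro Q
    by_cases hQ : Q ∈ E.support
    · rw [hy Q hQ, neg_neg]
      have := Finsupp.le_def.mp hE0 Q
      simp only [Finsupp.coe_zero, Pi.zero_apply] at this
      omega
    · rw [Finsupp.notMem_support_iff] at hQ
      have := ((mem_riemannRochSpace_iff.mp (hE.1 ⟨f, hf, rfl⟩)) Q).resolve_left hy0
      rw [hQ] at this ⊢
      omega
  -- `y` is not constant
  have hnc : ∀ c : k, G.red f ≠ algebraMap k Fk c := by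
    intro c hc
    obtain ⟨Q, hQ⟩ : ∃ Q, E Q ≠ 0 := by
      by_contra hcon
      push Not at hcon
      exact hEz (Finsupp.ext hcon)
    have h1 := hy Q (Finsupp.mem_support_iff.mpr hQ)
    rw [hc, Fermat.Agent.S24.Ord.ord_algebraMap] at h1
    omega
  have hf0 : (f : FL) ≠ 0 := by
    intro h0
    apply hy0
    have : f = 0 := Subtype.ext h0
    rw [this, map_zero]
  obtain ⟨Du, hDu⟩ := exists_isPoleDiv (K := L) hf0
  have h1 := H.fi f Du E hnc hDu hpoleY
  have h2 : Du ≤ D := by
    rw [Finsupp.le_def]
    intro v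
    rw [hDu v]
    have := ((mem_riemannRochSpace_iff.mp hf) v).resolve_left hf0
    have h3 := Finsupp.le_def.mp hD v
    simp only [Finsupp.coe_zero, Pi.zero_apply] at h3
    omega
  exact h1.trans (degree_le_of_le h2)

theorem exists_bar (H : Hyp G gL gk) {D : Divisor L FL} (hD : 0 ≤ D) :
    ∃ E : Divisor k Fk, IsPoleBound (G.redSpace D) E :=
  haveI := finite_redSpace' H D
  exists_isPoleBound _ (redSpace_ne_bot hD)

open Classical in
/-- `D̄`: the pole bound of the reduction of `L(D) ∩ O` (junk value `0` if `D` is not effective). -/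
def bar (H : Hyp G gL gk) (D : Divisor L FL) : Divisor k Fk :=
  if hD : 0 ≤ D then (exists_bar H hD).choose else 0

theorem isPoleBound_bar (H : Hyp G gL gk) {D : Divisor L FL} (hD : 0 ≤ D) :
    IsPoleBound (G.redSpace D) (bar H D) := by
  rw [bar, dif_pos hD]
  exact (exists_bar H hD).choose_spec

/-- the degree threshold above which everything is rigid -/
def thr (H : Hyp G gL gk) : ℤ :=
  max H.riemannL.riemann_eq.choose (H.riemannK.riemann_eq.choose + 1)

theorem ell_eq_of_thr_le (H : Hyp G gL gk) {D : Divisor L FL} (hD : thr H ≤ Divisor.degree D) :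
    (ell D : ℤ) = Divisor.degree D + 1 - gL :=
  H.riemannL.riemann_eq.choose_spec D ((le_max_left _ _).trans hD)

theorem ell_eq_of_thr_le' (H : Hyp G gL gk) {E : Divisor k Fk}
    (hE : thr H - 1 ≤ Divisor.degree E) :
    (ell E : ℤ) = Divisor.degree E + 1 - gk := by
  apply H.riemannK.riemann_eq.choose_spec E
  have := le_max_right H.riemannL.riemann_eq.choose (H.riemannK.riemann_eq.choose + 1)
  unfold thr at hE
  omega

/-- `D` is effective of large degree. -/
def Large (H : Hyp G gL gk) (D : Divisor L FL) : Prop := 0 ≤ D ∧ thr H ≤ Divisor.degree D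

theorem Large.add {H : Hyp G gL gk} {D D' : Divisor L FL} (h : Large H D) (h' : 0 ≤ D') :
    Large H (D + D') := by
  refine ⟨add_nonneg h.1 h', ?_⟩
  rw [map_add]
  have := Fermat.Agent.S18.A.Riemann.degree_nonneg h'
  have := h.2
  omega

/-- **Step 2**: for `D` effective of large degree, `deg D̄ = deg D`, the reduction of `L(D) ∩ O` is
all of `L(D̄)`, and the two genera agree. -/
theorem large_spec (H : Hyp G gL gk) {D : Divisor L FL} (hD : Large H D) :
    Divisor.degree (bar H D) = Divisor.degree D ∧ G.redSpace D = riemannRochSpace (bar H D) ∧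
      gk = gL := by
  classical
  have hE := isPoleBound_bar H hD.1
  have := finite_redSpace' H D
  have := H.riemannK.finite
  have h1 : (ell D : ℤ) = Divisor.degree D + 1 - gL := ell_eq_of_thr_le H hD.2
  have h2 : ell D ≤ Module.finrank k (G.redSpace D) := H.ob D hD.1
  have h3 : Module.finrank k (G.redSpace D) ≤ ell (bar H D) := Submodule.finrank_mono hE.1
  have h4 := degree_poleBound_le H hD.1 hE
  have hg := H.genus_le
  by_cases hcase : thr H - 1 ≤ Divisor.degree (bar H D)
  · have h5 := ell_eq_of_thr_le' H hcase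
    have hgg : gk = gL := by omega
    have hdeg : Divisor.degree (bar H D) = Divisor.degree D := by omega
    refine ⟨hdeg, ?_, hgg⟩
    apply Submodule.eq_of_le_of_finrank_eq hE.1
    have : (Module.finrank k (G.redSpace D) : ℤ) = ell (bar H D) := by omega
    exact_mod_cast this
  · exfalso
    push Not at hcase
    have := H.riemannK.infinite
    obtain ⟨Q₀⟩ : Nonempty (Place k Fk) := inferInstance
    set n : ℕ := (thr H - 1 - Divisor.degree (bar H D)).toNat with hn
    set E' : Divisor k Fk := bar H D + Finsupp.single Q₀ (n : ℤ) with hE'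
    have hEE' : bar H D ≤ E' := by
      rw [hE']
      apply le_add_of_nonneg_right
      rw [Finsupp.le_def]
      intro v
      rw [Finsupp.single_apply]
      split_ifs <;> simp
    have hdegE' : Divisor.degree E' = thr H - 1 := by
      rw [hE', map_add, Divisor.degree_single, H.riemannK.deg_one Q₀]
      have : ((n : ℕ) : ℤ) = thr H - 1 - Divisor.degree (bar H D) := by
        rw [hn, Int.toNat_of_nonneg]; omega
      rw [this]; simp
    have h5 := ell_eq_of_thr_le' H (le_of_eq hdegE'.symm)
    have h6 : ell (bar H D) ≤ ell E' := ell_mono (H.riemannK.finite _) hEE'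
    have := hD.2
    omega

theorem degree_bar (H : Hyp G gL gk) {D : Divisor L FL} (hD : Large H D) :
    Divisor.degree (bar H D) = Divisor.degree D := (large_spec H hD).1

theorem redSpace_eq (H : Hyp G gL gk) {D : Divisor L FL} (hD : Large H D) :
    G.redSpace D = riemannRochSpace (bar H D) := (large_spec H hD).2.1

theorem exists_large (H : Hyp G gL gk) : ∃ D : Divisor L FL, Large H D := by
  classical
  have := H.riemannL.infinite
  obtain ⟨P₀⟩ : Nonempty (Place L FL) := inferInstance
  refine ⟨Finsupp.single P₀ ((thr H).toNat : ℤ), ?_, ?_⟩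
  · rw [Finsupp.le_def]
    intro v
    rw [Finsupp.single_apply]
    split_ifs <;> simp
  · rw [Divisor.degree_single, H.riemannL.deg_one P₀]
    simp

/-- the genera agree -/
theorem genus_eq (H : Hyp G gL gk) : gk = gL := by
  obtain ⟨D, hD⟩ := exists_large H
  exact (large_spec H hD).2.2

/-! ### Step 3: additivity -/

theorem eq_of_le_of_degree_eq {K : Type*} [Field K] {F : Type*} [Field F] [Algebra K F]
    (hdeg : ∀ v : Place K F, v.deg = 1) {E E' : Divisor K F} (h : E ≤ E')
    (hd : Divisor.degree E = Divisor.degree E') : E = E' := by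
  have h1 : 0 ≤ E' - E := sub_nonneg.mpr h
  have h2 : Divisor.degree (E' - E) = 0 := by rw [map_sub, hd, sub_self]
  have := Fermat.Agent.S18.A.Riemann.eq_zero_of_degree_eq_zero hdeg h1 h2
  exact (sub_eq_zero.mp this).symm

theorem bar_add (H : Hyp G gL gk) {D D' : Divisor L FL} (hD : Large H D) (hD' : Large H D') :
    bar H (D + D') = bar H D + bar H D' := by
  have hsum : Large H (D + D') := hD.add hD'.1
  have hle : bar H D + bar H D' ≤ bar H (D + D') := by
    rw [Finsupp.le_def]
    intro Q
    obtain ⟨y, hyV, hy0, hy⟩ := (isPoleBound_bar H hD.1).2 Q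
    obtain ⟨y', hyV', hy0', hy'⟩ := (isPoleBound_bar H hD'.1).2 Q
    have hmem := (isPoleBound_bar H hsum.1).1 (G.mul_mem_redSpace hyV hyV')
    have := ((mem_riemannRochSpace_iff.mp hmem) Q).resolve_left (mul_ne_zero hy0 hy0')
    rw [Q.ord_mul hy0 hy0'] at this
    rw [Finsupp.add_apply]
    omega
  refine (eq_of_le_of_degree_eq H.riemannK.deg_one hle ?_).symm
  rw [map_add, degree_bar H hD, degree_bar H hD', degree_bar H hsum, map_add]

theorem bar_mono (H : Hyp G gL gk) {D D' : Divisor L FL} (hD : 0 ≤ D) (h : D ≤ D') :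
    bar H D ≤ bar H D' :=
  (isPoleBound_bar H hD).le_of_le (G.redSpace_mono h) (isPoleBound_bar H (hD.trans h))

/-! ### Step 4: the place map -/

theorem single_nonneg' {K : Type*} [Field K] {F : Type*} [Field F] [Algebra K F]
    (Q : Place K F) : (0 : Divisor K F) ≤ Finsupp.single Q 1 := single_nonneg Q

theorem exists_eq_single {K : Type*} [Field K] {F : Type*} [Field F] [Algebra K F]
    (hdeg : ∀ v : Place K F, v.deg = 1) {E : Divisor K F} (hE : 0 ≤ E)
    (h1 : Divisor.degree E = 1) : ∃ Q : Place K F, E = Finsupp.single Q 1 := by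
  classical
  have hne : E ≠ 0 := by
    intro h
    rw [h, map_zero] at h1
    exact zero_ne_one h1
  obtain ⟨Q, hQ⟩ : ∃ Q, E Q ≠ 0 := by
    by_contra hcon
    push Not at hcon
    exact hne (Finsupp.ext hcon)
  refine ⟨Q, ?_⟩
  have hpos : 1 ≤ E Q := by
    have := Finsupp.le_def.mp hE Q
    simp only [Finsupp.coe_zero, Pi.zero_apply] at this
    omega
  have h2 : Finsupp.single Q 1 ≤ E := by
    rw [Finsupp.le_def]
    intro v
    rw [Finsupp.single_apply]
    split_ifs with hv
    · subst hv; exact hpos
    · have := Finsupp.le_def.mp hE v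
      simpa using this
  refine (eq_of_le_of_degree_eq hdeg h2 ?_).symm
  rw [Divisor.degree_single, hdeg Q, h1]
  simp

theorem exists_step (H : Hyp G gL gk) {D : Divisor L FL} (hD : Large H D) (P : Place L FL) :
    ∃ Q : Place k Fk, bar H (D + Finsupp.single P 1) = bar H D + Finsupp.single Q 1 := by
  have hDP : Large H (D + Finsupp.single P 1) := hD.add (single_nonneg P)
  have hle : bar H D ≤ bar H (D + Finsupp.single P 1) :=
    bar_mono H hD.1 (le_add_of_nonneg_right (single_nonneg P))
  have hdeg : Divisor.degree (bar H (D + Finsupp.single P 1) - bar H D) = 1 := by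
    rw [map_sub, degree_bar H hDP, degree_bar H hD, map_add, Divisor.degree_single,
      H.riemannL.deg_one P]
    simp
  obtain ⟨Q, hQ⟩ := exists_eq_single H.riemannK.deg_one (sub_nonneg.mpr hle) hdeg
  exact ⟨Q, by rw [← hQ]; abel⟩

/-- **Deuring's place map.** -/
def placeMap (H : Hyp G gL gk) (P : Place L FL) : Place k Fk :=
  (exists_step H (exists_large H).choose_spec P).choose

theorem bar_add_single (H : Hyp G gL gk) {D : Divisor L FL} (hD : Large H D) (P : Place L FL) :
    bar H (D + Finsupp.single P 1) = bar H D + Finsupp.single (placeMap H P) 1 := by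
  set D₀ := (exists_large H).choose with hD₀def
  have hD₀ : Large H D₀ := (exists_large H).choose_spec
  have h0 : bar H (D₀ + Finsupp.single P 1) = bar H D₀ + Finsupp.single (placeMap H P) 1 :=
    (exists_step H hD₀ P).choose_spec
  have hD₀P : Large H (D₀ + Finsupp.single P 1) := hD₀.add (single_nonneg P)
  have hDP : Large H (D + Finsupp.single P 1) := hD.add (single_nonneg P)
  have h1 : bar H (D + (D₀ + Finsupp.single P 1)) = bar H D + bar H (D₀ + Finsupp.single P 1) :=
    bar_add H hD hD₀P
  have h2 : bar H ((D + Finsupp.single P 1) + D₀) = bar H (D + Finsupp.single P 1) + bar H D₀ :=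
    bar_add H hDP hD₀
  have h3 : D + (D₀ + Finsupp.single P 1) = (D + Finsupp.single P 1) + D₀ := by abel
  rw [h3, h2, h0] at h1
  have : bar H (D + Finsupp.single P 1) + bar H D₀
      = (bar H D + Finsupp.single (placeMap H P) 1) + bar H D₀ := by rw [h1]; abel
  exact add_right_cancel this

theorem bar_add_effective (H : Hyp G gL gk) {E : Divisor L FL} (hE : 0 ≤ E) :
    ∀ {D : Divisor L FL}, Large H D →
      bar H (D + E) = bar H D + Finsupp.mapDomain (placeMap H) E := by
  classical
  refine Fermat.Agent.S18.A.Riemann.effective_induction H.riemannL.deg_one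
    (P := fun E => ∀ {D : Divisor L FL}, Large H D →
      bar H (D + E) = bar H D + Finsupp.mapDomain (placeMap H) E) ?_ ?_ E hE
  · intro D _
    simp
  · intro E v hE ih D hD
    have hDE : Large H (D + E) := hD.add hE
    rw [← add_assoc, bar_add_single H hDE v, ih hD, Finsupp.mapDomain_add,
      Finsupp.mapDomain_single, add_assoc]

theorem bar_eq_mapDomain (H : Hyp G gL gk) {D : Divisor L FL} (hD : Large H D) :
    bar H D = Finsupp.mapDomain (placeMap H) D := by
  have h1 := bar_add H hD hD
  have h2 := bar_add_effective H hD.1 hD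
  rw [h1] at h2
  exact add_left_cancel h2

/-! ### Step 5: compatibility with divisors of Gauss units -/

theorem red_unit_ne_zero (u : G.Oˣ) : G.red (u : G.O) ≠ 0 := by
  intro h
  exact ((G.red_eq_zero_iff (u : G.O)).mp h) u.isUnit

theorem coe_unit_ne_zero (u : G.Oˣ) : ((u : G.O) : FL) ≠ 0 := by
  intro h
  have : (u : G.O) = 0 := Subtype.ext h
  exact u.ne_zero this

/-- multiplication by a Gauss unit `u` identifies the reductions of `L(D + div u) ∩ O` and
`L(D) ∩ O` -/
theorem mul_mem_redSpace_iff (u : G.Oˣ) {Du : Divisor L FL}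
    (hDu : ∀ P : Place L FL, Du P = P.ord ((u : G.O) : FL)) (D : Divisor L FL) (y : Fk) :
    y ∈ G.redSpace (D + Du) ↔ G.red (u : G.O) * y ∈ G.redSpace D := by
  have hu0 := coe_unit_ne_zero u
  constructor
  · rintro ⟨g, hg, rfl⟩
    refine ⟨(u : G.O) * g, ?_, map_mul _ _ _⟩
    exact (Fermat.Agent.S18.A.Riemann.mul_mem_iff hu0 hDu (g : FL)).mp hg
  · rintro ⟨h, hh, hy⟩
    refine ⟨((u⁻¹ : G.Oˣ) : G.O) * h, ?_, ?_⟩
    · rw [Fermat.Agent.S18.A.Riemann.mul_mem_iff hu0 hDu]
      have : ((u : G.O) : FL) * ((((u⁻¹ : G.Oˣ) : G.O) * h : G.O) : FL) = (h : FL) := by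
        have h1 : (u : G.O) * (((u⁻¹ : G.Oˣ) : G.O) * h) = h := by
          rw [← mul_assoc, Units.mul_inv, one_mul]
        exact congrArg Subtype.val h1
      rw [this]
      exact hh
    · rw [map_mul, hy, ← mul_assoc, ← map_mul, Units.inv_mul, map_one, one_mul]

theorem degree_eq_zero_of_isDiv {K : Type*} [Field K] {F : Type*} [Field F] [Algebra K F]
    [HasPrincipalDivisors K F] {f : F} (hf : f ≠ 0) {D : Divisor K F}
    (hD : ∀ v : Place K F, D v = v.ord f) : Divisor.degree D = 0 := by
  obtain ⟨D', hD', hdeg⟩ := HasPrincipalDivisors.exists_divisor (K := K) f hf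
  have : D = D' := Finsupp.ext fun v => by rw [hD v, hD' v]
  rw [this, hdeg]

/-- **Step 5**: `r_* div(u) = div(red u)` for every Gauss unit `u`. -/
theorem mapDomain_placeMap_div (H : Hyp G gL gk) (u : G.Oˣ) (Du : Divisor L FL)
    (hDu : ∀ P : Place L FL, Du P = P.ord ((u : G.O) : FL)) (Q : Place k Fk) :
    Finsupp.mapDomain (placeMap H) Du Q = Q.ord (G.red (u : G.O)) := by
  classical
  have hu0 := coe_unit_ne_zero u
  have hy0 := red_unit_ne_zero u
  -- the negative part of `div u`
  set Pl : Divisor L FL := Du.mapRange (fun n => max 0 (-n)) (by simp) with hPl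
  have hPl0 : 0 ≤ Pl := by
    rw [Finsupp.le_def]; intro v; rw [hPl, Finsupp.mapRange_apply]; simp
  have hZ0 : 0 ≤ Du + Pl := by
    rw [Finsupp.le_def]; intro v
    rw [Finsupp.add_apply, hPl, Finsupp.mapRange_apply]
    simp only [Finsupp.coe_zero, Pi.zero_apply]
    omega
  obtain ⟨D₁, hD₁⟩ := exists_large H
  have hD : Large H (D₁ + Pl) := hD₁.add hPl0
  have hDD : Large H (D₁ + Pl + Du) := by
    have : D₁ + Pl + Du = D₁ + (Du + Pl) := by abel
    rw [this]
    exact hD₁.add hZ0
  obtain ⟨Dy, hDy, -⟩ := HasPrincipalDivisors.exists_divisor (K := k) (G.red (u : G.O)) hy0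
  -- `bar (D + Du) = bar D + Dy` by uniqueness of pole bounds
  have hpb : IsPoleBound (G.redSpace (D₁ + Pl + Du)) (bar H (D₁ + Pl) + Dy) := by
    have hb := isPoleBound_bar H hD.1
    constructor
    · intro y hy
      rw [Fermat.Agent.S18.A.Riemann.mul_mem_iff hy0 hDy]
      exact hb.1 ((mul_mem_redSpace_iff u hDu _ y).mp hy)
    · intro Q'
      obtain ⟨y', hyV', hy0', hy'⟩ := hb.2 Q'
      refine ⟨(G.red (u : G.O))⁻¹ * y', ?_, mul_ne_zero (inv_ne_zero hy0) hy0', ?_⟩
      · rw [mul_mem_redSpace_iff u hDu, ← mul_assoc, mul_inv_cancel₀ hy0, one_mul]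
        exact hyV'
      · rw [Q'.ord_mul (inv_ne_zero hy0) hy0', Q'.ord_inv, hy', Finsupp.add_apply, hDy Q']
        ring
  have heq : bar H (D₁ + Pl + Du) = bar H (D₁ + Pl) + Dy :=
    (isPoleBound_bar H hDD.1).unique hpb
  rw [bar_eq_mapDomain H hDD, bar_eq_mapDomain H hD, Finsupp.mapDomain_add] at heq
  have h2 : Finsupp.mapDomain (placeMap H) Du = Dy := add_left_cancel heq
  rw [h2, hDy Q]

theorem deg_placeMap (H : Hyp G gL gk) (P : Place L FL) : (placeMap H P).deg = P.deg := by
  rw [H.riemannK.deg_one, H.riemannL.deg_one]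

/-- **Deuring's theorem**: the reduction datum with the constructed place map. -/
def redDatum (H : Hyp G gL gk) : Fermat.Agent.S18.CoreDefs.RedDatum A π (placeMap H) where
  O := G.O
  red := G.red
  algebraMap_mem := G.algebraMap_mem
  red_algebraMap := G.red_algebraMap
  red_eq_zero_iff := G.red_eq_zero_iff
  exists_const_mul_unit := G.exists_const_mul_unit
  mem_of_algebraMap_mem := G.mem_of_algebraMap_mem
  compat := fun u D hD Q => mapDomain_placeMap_div H u D hD Q

/-- **Deuring's theorem**, existential form. -/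
theorem exists_placeMap (H : Hyp G gL gk) :
    ∃ r : Place L FL → Place k Fk, (∀ P, (r P).deg = P.deg) ∧
      ∀ (u : G.Oˣ) (D : Divisor L FL), (∀ P : Place L FL, D P = P.ord ((u : G.O) : FL)) →
        ∀ Q : Place k Fk, Finsupp.mapDomain r D Q = Q.ord (G.red (u : G.O)) :=
  ⟨placeMap H, deg_placeMap H, fun u D hD Q => mapDomain_placeMap_div H u D hD Q⟩

end Main

end Fermat.Agent.S37.Deuring.Core
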