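import Mathlib
import Fermat.Agent.S37.Deuring.Core
import Fermat.Agent.S18.A.FibreSep

/-!
# PROJECT I (S37), slice I-1D: the fundamental inequality `(FI)` of Deuring's reduction theory

For a Gauss datum `G` whose reduction map `red : O → Fk` is onto, and a Gauss-integral function
`u` with non-constant reduction `ū`, we prove `deg (ū)_∞ ≤ deg (u)_∞`, i.e. `G.FI`.

* `k`-side (any field, only Riemann's theorem): if `d = deg (y)_∞`, there are `d` elements of `Fk`
  which are linearly independent over `k[y]` (`exists_indep`): take `m` large and `d` elements of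
  `L((m+1)·(y)_∞)` independent modulo `L(m·(y)_∞)`; a relation with polynomial coefficients is
  impossible by looking at the leading terms at a pole of `y`.
* lifting (`poly_eq_zero_of_red`): lifts to `O` of a `k[ū]`-independent family are
  `L[u]`-independent (normalise the coefficients by the one of largest valuation and reduce).
* `L`-side: `[FL : L(u)] = deg (u)_∞` (`S18.A.FibreSep.degree_poleDiv`, characteristic zero).
-/

set_option autoImplicit false
set_option linter.unusedSectionVars false
set_option linter.style.haveILetI false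

noncomputable section

namespace Fermat.Agent.S37.Deuring.FundIneq

open AlgebraicCurve Polynomial IntermediateField Fermat.Agent.S18.NonSpecial
  Fermat.Agent.S37.Deuring.Core
open scoped IntermediateField.algebraAdjoinAdjoin

/-! ### The `k`-side -/

section KSide

variable {K : Type*} [Field K] {F : Type*} [Field F] [Algebra K F]

theorem mul_mem_rr {D D' : Divisor K F} {f g : F} (hf : f ∈ riemannRochSpace D)
    (hg : g ∈ riemannRochSpace D') : f * g ∈ riemannRochSpace (D + D') := by
  rw [mem_riemannRochSpace_iff] at hf hg ⊢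
  intro v
  by_cases h0 : f = 0
  · left; simp [h0]
  by_cases h0' : g = 0
  · left; simp [h0']
  right
  have h1 := (hf v).resolve_left h0
  have h2 := (hg v).resolve_left h0'
  rw [v.ord_mul h0 h0', Finsupp.add_apply]
  omega

theorem mem_rr_of_isPoleDiv {y : F} {Dy : Divisor K F} (h : IsPoleDiv y Dy) :
    y ∈ riemannRochSpace Dy := by
  rw [mem_riemannRochSpace_iff]
  intro v
  right
  rw [h v]
  omega

theorem pow_mem_rr {y : F} {Dy : Divisor K F} (h : IsPoleDiv y Dy) (j : ℕ) :
    y ^ j ∈ riemannRochSpace (j • Dy) := by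
  induction j with
  | zero =>
    rw [pow_zero, zero_smul]
    exact one_mem_riemannRochSpace le_rfl
  | succ j ih =>
    rw [pow_succ, succ_nsmul]
    exact mul_mem_rr ih (mem_rr_of_isPoleDiv h)

/-- the leading-term argument at a pole of `y` -/
theorem pow_mul_not_mem {y : F} {Dy : Divisor K F} (h : IsPoleDiv y Dy) {m : ℕ} {z : F}
    (hz : z ∈ riemannRochSpace ((m + 1) • Dy)) (hz' : z ∉ riemannRochSpace (m • Dy)) (e : ℕ) :
    y ^ e * z ∉ riemannRochSpace ((m + e) • Dy) := by
  rw [mem_riemannRochSpace_iff] at hz hz'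
  push Not at hz'
  obtain ⟨v, hz0, hv⟩ := hz'
  have h1 := (hz v).resolve_left hz0
  rw [Finsupp.smul_apply, nsmul_eq_mul] at h1 hv
  have hD := h v
  have hexp : ((m + 1 : ℕ) : ℤ) * Dy v = (m : ℤ) * Dy v + Dy v := by push_cast; ring
  have hpos : 0 < Dy v := by linarith
  have hy0 : y ≠ 0 := by
    rintro rfl
    rw [Place.ord_zero] at hD
    simp at hD
    omega
  have hoy : v.ord y = - Dy v := by omega
  intro hmem
  rw [mem_riemannRochSpace_iff] at hmem
  have hne : y ^ e * z ≠ 0 := mul_ne_zero (pow_ne_zero _ hy0) hz0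
  have h2 := (hmem v).resolve_left hne
  rw [v.ord_mul (pow_ne_zero _ hy0) hz0, ← zpow_natCast, v.ord_zpow, hoy, Finsupp.smul_apply,
    nsmul_eq_mul] at h2
  have hexp2 : ((m + e : ℕ) : ℤ) * Dy v = (m : ℤ) * Dy v + (e : ℤ) * Dy v := by push_cast; ring
  rw [hexp2] at h2
  linarith

/-- a relation with bounded powers of `y` -/
theorem coeff_eq_zero_of_sum_eq_zero {y : F} {Dy : Divisor K F} (h : IsPoleDiv y Dy) {m : ℕ}
    {ι : Type*} [Fintype ι] (w : ι → F) (hw : ∀ i, w i ∈ riemannRochSpace ((m + 1) • Dy))
    (hind : ∀ c : ι → K, ∑ i, c i • w i ∈ riemannRochSpace (m • Dy) → ∀ i, c i = 0) :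
    ∀ (e : ℕ) (c : ι → ℕ → K), ∑ i, ∑ j ∈ Finset.range e, c i j • (y ^ j * w i) = 0 →
      ∀ i, ∀ j ∈ Finset.range e, c i j = 0 := by
  intro e
  induction e with
  | zero =>
    intro c _ i j hj
    simp at hj
  | succ e ih =>
    intro c hsum
    have hsplit : ∑ i, ∑ j ∈ Finset.range (e + 1), c i j • (y ^ j * w i)
        = (∑ i, ∑ j ∈ Finset.range e, c i j • (y ^ j * w i)) + y ^ e * ∑ i, c i e • w i := by
      simp_rw [Finset.sum_range_succ]
      rw [Finset.sum_add_distrib, Finset.mul_sum]
      congr 1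
      refine Finset.sum_congr rfl fun i _ => ?_
      rw [mul_smul_comm]
    have hlow : ∑ i, ∑ j ∈ Finset.range e, c i j • (y ^ j * w i)
        ∈ riemannRochSpace ((m + e) • Dy) := by
      refine Submodule.sum_mem _ fun i _ => Submodule.sum_mem _ fun j hj =>
        Submodule.smul_mem _ _ ?_
      have hj' : j < e := Finset.mem_range.mp hj
      have h1 : y ^ j * w i ∈ riemannRochSpace (j • Dy + (m + 1) • Dy) :=
        mul_mem_rr (pow_mem_rr h j) (hw i)
      refine riemannRochSpace_mono ?_ h1
      rw [← add_nsmul]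
      exact nsmul_le_nsmul_left h.nonneg (by omega)
    have htop : y ^ e * ∑ i, c i e • w i ∈ riemannRochSpace ((m + e) • Dy) := by
      have : y ^ e * ∑ i, c i e • w i
          = - ∑ i, ∑ j ∈ Finset.range e, c i j • (y ^ j * w i) := by
        rw [hsplit] at hsum
        exact eq_neg_of_add_eq_zero_right hsum
      rw [this]
      exact Submodule.neg_mem _ hlow
    have hz : ∑ i, c i e • w i ∈ riemannRochSpace ((m + 1) • Dy) :=
      Submodule.sum_mem _ fun i _ => Submodule.smul_mem _ _ (hw i)
    have hzm : ∑ i, c i e • w i ∈ riemannRochSpace (m • Dy) := by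
      by_contra hcon
      exact pow_mul_not_mem h hz hcon e htop
    have hce := hind (fun i => c i e) hzm
    have hsum' : ∑ i, ∑ j ∈ Finset.range e, c i j • (y ^ j * w i) = 0 := by
      rw [hsplit] at hsum
      simp only [hce, zero_smul, Finset.sum_const_zero, mul_zero, add_zero] at hsum
      exact hsum
    intro i j hj
    rcases Nat.lt_succ_iff_lt_or_eq.mp (Finset.mem_range.mp hj) with hlt | rfl
    · exact ih c hsum' i j (Finset.mem_range.mpr hlt)
    · exact hce i

/-- a relation with polynomial coefficients in `y` -/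
theorem poly_eq_zero_of_sum_eq_zero {y : F} {Dy : Divisor K F} (h : IsPoleDiv y Dy) {m : ℕ}
    {ι : Type*} [Fintype ι] (w : ι → F) (hw : ∀ i, w i ∈ riemannRochSpace ((m + 1) • Dy))
    (hind : ∀ c : ι → K, ∑ i, c i • w i ∈ riemannRochSpace (m • Dy) → ∀ i, c i = 0)
    (p : ι → K[X]) (hp : ∑ i, aeval y (p i) * w i = 0) : ∀ i, p i = 0 := by
  classical
  set e := (Finset.univ.sup fun i => (p i).natDegree) + 1 with he
  have hdeg : ∀ i, (p i).natDegree < e := fun i =>
    lt_of_le_of_lt (Finset.le_sup (f := fun i => (p i).natDegree) (Finset.mem_univ i))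
      (Nat.lt_succ_self _)
  have h1 : ∀ i, aeval y (p i) = ∑ j ∈ Finset.range e, (p i).coeff j • y ^ j := fun i =>
    Polynomial.aeval_eq_sum_range' (hdeg i) y
  have h2 := coeff_eq_zero_of_sum_eq_zero h w hw hind e (fun i j => (p i).coeff j) (by
    rw [← hp]
    refine Finset.sum_congr rfl fun i _ => ?_
    rw [h1 i, Finset.sum_mul]
    refine Finset.sum_congr rfl fun j _ => ?_
    rw [smul_mul_assoc])
  intro i
  ext j
  rw [coeff_zero]
  by_cases hj : j < e
  · exact h2 i j (Finset.mem_range.mpr hj)
  · exact coeff_eq_zero_of_natDegree_lt (lt_of_lt_of_le (hdeg i) (not_lt.mp hj))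

/-- **`k`-side**: `deg (y)_∞` elements of `F` which are linearly independent over `K[y]`. -/
theorem exists_indep {g : ℕ} (H : RiemannHyp K F g) {y : F} {Dy : Divisor K F}
    (h : IsPoleDiv y Dy) (d : ℕ) (hd : (d : ℤ) = Divisor.degree Dy) :
    ∃ w : Fin d → F, ∀ p : Fin d → K[X], ∑ i, aeval y (p i) * w i = 0 → ∀ i, p i = 0 := by
  classical
  rcases Nat.eq_zero_or_pos d with rfl | hdpos
  · exact ⟨Fin.elim0, fun p _ i => Fin.elim0 i⟩
  obtain ⟨c, hc⟩ := H.riemann_eq
  set m : ℕ := c.toNat with hm
  have hcm : c ≤ (m : ℤ) := Int.self_le_toNat c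
  have hdeg : ∀ n : ℕ, Divisor.degree (n • Dy) = (n : ℤ) * d := by
    intro n
    rw [map_nsmul, nsmul_eq_mul, hd]
  have hd1 : (1 : ℤ) ≤ d := by exact_mod_cast hdpos
  have hle : ∀ n : ℕ, m ≤ n → c ≤ Divisor.degree (n • Dy) := by
    intro n hn
    rw [hdeg]
    have : (m : ℤ) ≤ n := by exact_mod_cast hn
    nlinarith
  have e1 := hc _ (hle m le_rfl)
  have e2 := hc _ (hle (m + 1) (Nat.le_succ m))
  rw [hdeg] at e1 e2
  set V' := riemannRochSpace ((m + 1) • Dy) with hV'
  set V := riemannRochSpace (m • Dy) with hV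
  have hVV' : V ≤ V' := riemannRochSpace_mono (nsmul_le_nsmul_left h.nonneg (Nat.le_succ m))
  haveI : Module.Finite K V' := H.finite _
  haveI : Module.Finite K V := H.finite _
  set W : Submodule K V' := V.comap V'.subtype with hW
  have hWV : Module.finrank K W = Module.finrank K V :=
    (Submodule.comapSubtypeEquivOfLe hVV').finrank_eq
  have hquot : Module.finrank K (V' ⧸ W) = d := by
    have h3 := Submodule.finrank_quotient_add_finrank W
    rw [hWV] at h3
    have e1' : (Module.finrank K V : ℤ) = (m : ℤ) * d + 1 - g := e1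
    have e2' : (Module.finrank K V' : ℤ) = ((m + 1 : ℕ) : ℤ) * d + 1 - g := e2
    have h3' : (Module.finrank K (V' ⧸ W) : ℤ) + Module.finrank K V = Module.finrank K V' := by
      exact_mod_cast h3
    have : (Module.finrank K (V' ⧸ W) : ℤ) = d := by
      push_cast at e2'
      linarith
    exact_mod_cast this
  let b : Module.Basis (Fin d) K (V' ⧸ W) := Module.finBasisOfFinrankEq K _ hquot
  choose w' hw' using fun i => Submodule.Quotient.mk_surjective W (b i)
  refine ⟨fun i => (w' i : F), ?_⟩
  apply poly_eq_zero_of_sum_eq_zero h (m := m) (fun i => (w' i : F)) (fun i => (w' i).2)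
  intro a ha
  have hmem : (∑ i, a i • w' i : V') ∈ W := by
    show V'.subtype (∑ i, a i • w' i) ∈ V
    rw [map_sum]
    simpa using ha
  have h0 : ∑ i, a i • b i = 0 := by
    have := (Submodule.Quotient.mk_eq_zero W).mpr hmem
    rw [← this, ← Submodule.mkQ_apply, map_sum]
    refine Finset.sum_congr rfl fun i _ => ?_
    rw [map_smul, Submodule.mkQ_apply, hw' i]
  exact Fintype.linearIndependent_iff.mp b.linearIndependent a h0

end KSide

/-! ### Lifting independence over polynomial rings -/

section Lift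

variable {L : Type*} [Field L] {k : Type*} [Field k]
variable {A : ValuationSubring L} {π : A →+* k}
variable {FL : Type*} [Field FL] [Algebra L FL] {Fk : Type*} [Field Fk] [Algebra k Fk]
variable (G : GaussDatum A π FL Fk)

/-- constants as a ring homomorphism `A → O` -/
def constHom : A →+* G.O where
  toFun := G.const
  map_one' := Subtype.ext (by simp)
  map_mul' a b := Subtype.ext (by simp)
  map_zero' := Subtype.ext (by simp)
  map_add' a b := Subtype.ext (by simp)

theorem subtype_comp_constHom :
    G.O.subtype.comp (constHom G) = (algebraMap L FL).comp A.subtype :=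
  RingHom.ext fun _ => rfl

theorem red_comp_constHom : G.red.comp (constHom G) = (algebraMap k Fk).comp π :=
  RingHom.ext fun a => G.red_const a

/-- Lifts of a `k[ū]`-independent family are `L[u]`-independent. -/
theorem poly_eq_zero_of_red {ι : Type*} [Fintype ι] (u : G.O) (f : ι → G.O)
    (hred : ∀ q : ι → k[X], ∑ i, aeval (G.red u) (q i) * G.red (f i) = 0 → ∀ i, q i = 0)
    (P : ι → L[X]) (hP : ∑ i, aeval ((u : G.O) : FL) (P i) * ((f i : G.O) : FL) = 0) :
    ∀ i, P i = 0 := by
  classical
  by_contra hne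
  push Not at hne
  obtain ⟨i₁, hi₁⟩ := hne
  obtain ⟨j₁, hj₁⟩ : ∃ j, (P i₁).coeff j ≠ 0 := by
    by_contra hcon
    push Not at hcon
    exact hi₁ (Polynomial.ext (by simpa using hcon))
  set N := Finset.univ.sup fun i => (P i).natDegree with hN
  have hNi : ∀ i, (P i).natDegree ≤ N := fun i =>
    Finset.le_sup (f := fun i => (P i).natDegree) (Finset.mem_univ i)
  set s : Finset (ι × ℕ) := Finset.univ ×ˢ Finset.range (N + 1) with hs
  have hj₁N : j₁ ≤ N := (le_natDegree_of_ne_zero hj₁).trans (hNi i₁)
  obtain ⟨⟨i₀, j₀⟩, -, h0, hA⟩ := GaussDatum.exists_max_const (A := A) s (fun x => (P x.1).coeff x.2)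
    ⟨(i₁, j₁), by simp [hs]; omega, hj₁⟩
  simp only at h0 hA
  set c₀ := (P i₀).coeff j₀ with hc₀
  have hall : ∀ i j, (P i).coeff j / c₀ ∈ A := by
    intro i j
    by_cases hj : j ≤ N
    · exact hA (i, j) (by simp [hs]; omega)
    · rw [coeff_eq_zero_of_natDegree_lt (lt_of_le_of_lt (hNi i) (not_le.mp hj)), zero_div]
      exact A.zero_mem
  have hlift : ∀ i, ∃ Q : A[X], Q.map A.subtype = C c₀⁻¹ * P i := by
    intro i
    have : C c₀⁻¹ * P i ∈ Polynomial.lifts A.subtype := by
      rw [Polynomial.lifts_iff_coeff_lifts]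
      intro n
      rw [coeff_C_mul]
      refine ⟨⟨_, hall i n⟩, ?_⟩
      show (P i).coeff n / c₀ = c₀⁻¹ * (P i).coeff n
      rw [div_eq_inv_mul]
    exact this
  choose Q hQ using hlift
  have hO : ∑ i, (Q i).eval₂ (constHom G) u * f i = 0 := by
    apply Subtype.ext
    rw [show ((∑ i, (Q i).eval₂ (constHom G) u * f i : G.O) : FL)
      = G.O.subtype (∑ i, (Q i).eval₂ (constHom G) u * f i) from rfl, map_sum]
    simp only [map_mul, Polynomial.hom_eval₂, subtype_comp_constHom]
    have h1 : ∀ i, (Q i).eval₂ ((algebraMap L FL).comp A.subtype) (G.O.subtype u)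
        = algebraMap L FL c₀⁻¹ * aeval ((u : G.O) : FL) (P i) := by
      intro i
      rw [← Polynomial.eval₂_map, hQ i, Polynomial.eval₂_mul, Polynomial.eval₂_C]
      rfl
    simp_rw [h1, mul_assoc, ← Finset.mul_sum]
    rw [show ∑ i, aeval ((u : G.O) : FL) (P i) * G.O.subtype (f i) = 0 from hP, mul_zero]
    rfl
  have hred' := congrArg G.red hO
  rw [map_sum, map_zero] at hred'
  simp only [map_mul, Polynomial.hom_eval₂, red_comp_constHom] at hred'
  have h3 := hred (fun i => (Q i).map π) (by
    rw [← hred']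
    refine Finset.sum_congr rfl fun i _ => ?_
    rw [Polynomial.aeval_def, Polynomial.eval₂_map])
  have h4 := h3 i₀
  have h5 : (Q i₀).coeff j₀ = 1 := by
    apply Subtype.ext
    have := congrArg (fun p => Polynomial.coeff p j₀) (hQ i₀)
    simp only [coeff_map, coeff_C_mul] at this
    rw [← hc₀, inv_mul_cancel₀ h0] at this
    exact this
  have h6 := congrArg (fun p => Polynomial.coeff p j₀) h4
  simp only [coeff_map, h5, map_one, coeff_zero] at h6
  exact one_ne_zero h6

/-- `L[u]`-independent elements are `L(u)`-independent. -/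
theorem card_le_finrank {ι : Type*} [Fintype ι] {u : FL}
    [FiniteDimensional L⟮u⟯ FL] (f : ι → FL)
    (hind : ∀ P : ι → L[X], ∑ i, aeval u (P i) * f i = 0 → ∀ i, P i = 0) :
    Fintype.card ι ≤ Module.finrank L⟮u⟯ FL := by
  classical
  have hli : LinearIndependent (Algebra.adjoin L {u}) f := by
    rw [Fintype.linearIndependent_iff]
    intro r hr
    have hmem : ∀ z : FL, z ∈ Algebra.adjoin L {u} → ∃ p : L[X], aeval u p = z := by
      intro z hz
      rw [Algebra.adjoin_singleton_eq_range_aeval] at hz
      exact hz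
    have hex : ∀ i, ∃ p : L[X], aeval u p = (r i : FL) := fun i => hmem _ (r i).2
    choose p hp using hex
    have h1 := hind p (by
      rw [← hr]
      refine Finset.sum_congr rfl fun i _ => ?_
      rw [hp i]
      rfl)
    intro i
    apply Subtype.ext
    rw [← hp i, h1 i, map_zero]
    rfl
  have hli' : LinearIndependent L⟮u⟯ f :=
    (LinearIndependent.iff_fractionRing (Algebra.adjoin L {u}) L⟮u⟯).mp hli
  exact hli'.fintype_card_le_finrank


/-- **Degrees do not drop under reduction**: if `red` is onto and `ū = red u` is transcendental,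
then `[Fk : k(ū)] ≤ [FL : L(u)]`. -/
theorem finrank_le_finrank (u : G.O) (htr : Transcendental k (G.red u))
    [FiniteDimensional L⟮((u : G.O) : FL)⟯ FL] (hsurj : Function.Surjective G.red) :
    Module.finrank k⟮G.red u⟯ Fk ≤ Module.finrank L⟮((u : G.O) : FL)⟯ FL := by
  classical
  by_cases hfin : Module.Finite k⟮G.red u⟯ Fk
  · let b := Module.finBasis k⟮G.red u⟯ Fk
    choose f hf using fun i => hsurj (b i)
    have hred : ∀ q : Fin (Module.finrank k⟮G.red u⟯ Fk) → k[X],
        ∑ i, aeval (G.red u) (q i) * G.red (f i) = 0 → ∀ i, q i = 0 := by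
      intro q hq i
      have hmem : ∀ i, aeval (G.red u) (q i) ∈ k⟮G.red u⟯ := fun i =>
        IntermediateField.algebra_adjoin_le_adjoin k {G.red u}
          (by rw [Algebra.adjoin_singleton_eq_range_aeval]; exact ⟨q i, rfl⟩)
      have h1 : ∑ i, (⟨aeval (G.red u) (q i), hmem i⟩ : k⟮G.red u⟯) • b i = 0 := by
        rw [← hq]
        refine Finset.sum_congr rfl fun i _ => ?_
        rw [hf i]
        rfl
      have h2 := Fintype.linearIndependent_iff.mp b.linearIndependent _ h1 i
      have h3 : aeval (G.red u) (q i) = 0 := congrArg Subtype.val h2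
      exact transcendental_iff.mp htr _ h3
    have := card_le_finrank (fun i => ((f i : G.O) : FL)) (poly_eq_zero_of_red G u f hred)
    simpa using this
  · rw [Module.finrank_of_not_finite hfin]
    exact Nat.zero_le _

end Lift

/-! ### The fundamental inequality -/

section Main

open Fermat.Agent.S24.FF

universe u₁ u₂ u₃ u₄

variable {L : Type u₁} [Field L] {k : Type u₂} [Field k]
variable {A : ValuationSubring L} {π : A →+* k}
variable {FL : Type u₃} [Field FL] [Algebra L FL] {Fk : Type u₄} [Field Fk] [Algebra k Fk]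

/-- **(FI)** for a Gauss datum with surjective reduction map, over an algebraically closed base of
characteristic zero. -/
theorem fi (G : GaussDatum A π FL Fk) [IsAlgClosed L] [CharZero L] {x0 : FL} (hx0 : IsFF L x0)
    {gk : ℕ} (HK : RiemannHyp k Fk gk) (hsurj : Function.Surjective G.red) : G.FI := by
  classical
  intro u Du Dy hnc hDu hDy
  have hu : IsFF L ((u : G.O) : FL) := hx0.of_not_mem_range (fun c hc => by
    have hcA : c ∈ A := G.mem_of_algebraMap_mem c (hc ▸ u.2)
    apply hnc (π ⟨c, hcA⟩)
    rw [← G.red_algebraMap ⟨c, hcA⟩]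
    congr 1
    exact Subtype.ext hc.symm)
  haveI := hu.finite
  have hsep : Algebra.IsSeparable L⟮((u : G.O) : FL)⟯ FL := inferInstance
  have hdegL : Divisor.degree Du = Module.finrank L⟮((u : G.O) : FL)⟯ FL := by
    rw [← Fermat.Agent.S18.A.FibreSep.degree_poleDiv hu hsep]
    congr 1
    ext v
    rw [hDu v, Fermat.Agent.S18.A.FibreSep.poleDiv_apply]
    exact max_comm _ _
  have hnonneg : 0 ≤ Divisor.degree Dy := Fermat.Agent.S18.A.Riemann.degree_nonneg hDy.nonneg
  obtain ⟨d, hd⟩ := Int.eq_ofNat_of_zero_le hnonneg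
  obtain ⟨w, hw⟩ := exists_indep HK hDy d hd.symm
  choose f hf using fun i => hsurj (w i)
  have h1 := card_le_finrank (fun i => ((f i : G.O) : FL))
    (poly_eq_zero_of_red G u f (by simpa only [hf] using hw))
  rw [hdegL, hd]
  simpa using h1

end Main

end Fermat.Agent.S37.Deuring.FundIneq
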