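import Mathlib
import Fermat.Agent.S37.Deuring.Core

/-!
# PROJECT I (S37), slice I-1D: Gauss-type lemmas for a Gauss datum

Common helpers for the proofs of `(OB)` and `(FI)`:

* `constHom G : A →+* G.O`, `evalO G x P : G.O` (evaluation of `P : A[X]` at `x : G.O`) with its
  coercion `coe_evalO` and reduction `red_evalO`;
* `exists_scale`: a finite family of polynomials over `L`, not all zero, can be scaled by a
  nonzero constant to a family over `A` whose reduction mod `π` is not identically zero;
* `transcendental_of_red`: a lift of a transcendental element is transcendental;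
* `eq_zero_of_sum_aeval_mul`: polynomial independence of reductions lifts;
* `linearIndependent_adjoin_of_aeval`, `linearIndependent_field_of_aeval`: from polynomial
  independence to linear independence over `L[x]` and `L(x)`.
-/

set_option autoImplicit false
set_option linter.unusedSectionVars false

noncomputable section

namespace Fermat.Agent.S37.Deuring.GaussLemmas

open AlgebraicCurve Polynomial IntermediateField
open Fermat.Agent.S37.Deuring.Core

variable {L : Type*} [Field L] {k : Type*} [Field k]
variable {A : ValuationSubring L} {π : A →+* k}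
variable {FL : Type*} [Field FL] [Algebra L FL] {Fk : Type*} [Field Fk] [Algebra k Fk]
variable (G : GaussDatum A π FL Fk)

/-- constants as a ring homomorphism `A →+* O` -/
def constHom : A →+* G.O :=
  ((algebraMap L FL).comp A.subtype).codRestrict G.O fun a => G.algebraMap_mem a

@[simp] theorem coe_constHom (a : A) : ((constHom G a : G.O) : FL) = algebraMap L FL (a : L) := rfl

theorem constHom_eq_const (a : A) : constHom G a = G.const a := rfl

@[simp] theorem red_constHom (a : A) : G.red (constHom G a) = algebraMap k Fk (π a) :=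
  G.red_algebraMap a

theorem subtype_comp_constHom :
    (G.O.subtype).comp (constHom G) = (algebraMap L FL).comp A.subtype :=
  RingHom.ext fun _ => rfl

theorem red_comp_constHom : G.red.comp (constHom G) = (algebraMap k Fk).comp π :=
  RingHom.ext fun a => red_constHom G a

/-- evaluation of a polynomial with coefficients in `A` at an element of `O` -/
def evalO (x : G.O) (P : A[X]) : G.O := Polynomial.eval₂ (constHom G) x P

theorem coe_evalO (x : G.O) (P : A[X]) :
    ((evalO G x P : G.O) : FL) = aeval (x : FL) (P.map A.subtype) := by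
  have h := Polynomial.hom_eval₂ P (constHom G) G.O.subtype x
  rw [subtype_comp_constHom] at h
  rw [aeval_def, Polynomial.eval₂_map]
  exact h

theorem red_evalO (x : G.O) (P : A[X]) :
    G.red (evalO G x P) = aeval (G.red x) (P.map π) := by
  have h := Polynomial.hom_eval₂ P (constHom G) G.red x
  rw [red_comp_constHom] at h
  rw [aeval_def, Polynomial.eval₂_map]
  exact h

/-! ### Scaling -/

/-- A finite family of polynomials over `L`, not all zero, can be scaled by a nonzero constant to
a family over `A` with nonzero reduction. -/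
theorem exists_scale {ι : Type*} [Fintype ι] (p : ι → L[X]) (hp : ∃ i, p i ≠ 0) :
    ∃ c : L, c ≠ 0 ∧ ∃ P : ι → A[X], (∀ i, (P i).map A.subtype = C c * p i) ∧
      ∃ i, (P i).map π ≠ 0 := by
  classical
  obtain ⟨i₁, hi₁⟩ := hp
  obtain ⟨e₁, he₁⟩ : ∃ e, (p i₁).coeff e ≠ 0 := by
    by_contra h
    push Not at h
    exact hi₁ (Polynomial.ext fun e => by simpa using h e)
  set s : Finset (Σ _ : ι, ℕ) := Finset.univ.sigma fun i => (p i).support with hs
  set c' : (Σ _ : ι, ℕ) → L := fun j => (p j.1).coeff j.2 with hc'
  have hmem : (⟨i₁, e₁⟩ : Σ _ : ι, ℕ) ∈ s := by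
    rw [hs, Finset.mem_sigma]
    exact ⟨Finset.mem_univ _, Polynomial.mem_support_iff.mpr he₁⟩
  obtain ⟨⟨i₀, e₀⟩, -, h0, hA⟩ :=
    GaussDatum.exists_max_const (A := A) s c' ⟨⟨i₁, e₁⟩, hmem, he₁⟩
  have hA' : ∀ i e, (p i).coeff e / (p i₀).coeff e₀ ∈ A := by
    intro i e
    by_cases h : (p i).coeff e = 0
    · rw [h, zero_div]; exact A.zero_mem
    · exact hA ⟨i, e⟩ (by
        rw [hs, Finset.mem_sigma]
        exact ⟨Finset.mem_univ _, Polynomial.mem_support_iff.mpr h⟩)
  have h0' : (p i₀).coeff e₀ ≠ 0 := h0
  refine ⟨((p i₀).coeff e₀)⁻¹, inv_ne_zero h0', ?_⟩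
  have hl : ∀ i, (C ((p i₀).coeff e₀)⁻¹ * p i) ∈ Polynomial.lifts A.subtype := by
    intro i
    rw [Polynomial.lifts_iff_coeff_lifts]
    intro e
    rw [Polynomial.coeff_C_mul]
    exact ⟨⟨_, hA' i e⟩, by simp [div_eq_inv_mul]⟩
  choose P hP using fun i => (Polynomial.mem_lifts _).mp (hl i)
  refine ⟨P, hP, i₀, ?_⟩
  intro h
  have h1 : ((P i₀).map π).coeff e₀ = 0 := by rw [h, Polynomial.coeff_zero]
  rw [Polynomial.coeff_map] at h1
  have h2 : (P i₀).coeff e₀ = 1 := by
    apply Subtype.ext
    have := congrArg (fun q => Polynomial.coeff q e₀) (hP i₀)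
    simp only [Polynomial.coeff_map, Polynomial.coeff_C_mul] at this
    rw [ValuationSubring.subtype_apply] at this
    rw [this, inv_mul_cancel₀ h0']
    rfl
  rw [h2, map_one] at h1
  exact one_ne_zero h1

/-- one nonzero polynomial -/
theorem exists_scale_one (q : L[X]) (hq : q ≠ 0) :
    ∃ c : L, c ≠ 0 ∧ ∃ Q : A[X], Q.map A.subtype = C c * q ∧ Q.map π ≠ 0 := by
  obtain ⟨c, hc, P, hP, i, hi⟩ := exists_scale (A := A) (π := π) (fun _ : Unit => q) ⟨(), hq⟩
  exact ⟨c, hc, P (), hP (), by cases i; exact hi⟩

/-! ### Lifting polynomial independence -/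

/-- Polynomial independence of the reductions lifts. -/
theorem eq_zero_of_sum_aeval_mul {ι : Type*} [Fintype ι] (x : G.O) (z : ι → G.O)
    (hz : ∀ p : ι → k[X], ∑ i, aeval (G.red x) (p i) * G.red (z i) = 0 → ∀ i, p i = 0)
    (p : ι → L[X]) (hp : ∑ i, aeval (x : FL) (p i) * (z i : FL) = 0) : ∀ i, p i = 0 := by
  by_contra hne
  push Not at hne
  obtain ⟨c, hc, P, hP, i₀, hi₀⟩ := exists_scale (A := A) (π := π) p hne
  have hsum : ∑ i, evalO G x (P i) * z i = 0 := by
    apply Subtype.ext
    rw [show ((∑ i, evalO G x (P i) * z i : G.O) : FL)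
        = ∑ i, ((evalO G x (P i) : G.O) : FL) * (z i : FL) from by
      rw [← ValuationSubring.subtype_apply, map_sum]; rfl]
    have : ∀ i, ((evalO G x (P i) : G.O) : FL) * (z i : FL)
        = algebraMap L FL c * (aeval (x : FL) (p i) * (z i : FL)) := by
      intro i
      rw [coe_evalO, hP, map_mul, aeval_C, mul_assoc]
    rw [Finset.sum_congr rfl fun i _ => this i, ← Finset.mul_sum, hp, mul_zero]
    rfl
  have hred := congrArg G.red hsum
  rw [map_sum, map_zero] at hred
  simp only [map_mul, red_evalO] at hred
  exact hi₀ (hz (fun i => (P i).map π) hred i₀)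

/-- A lift of a transcendental element is transcendental. -/
theorem transcendental_of_red (x : G.O) (hx : Transcendental k (G.red x)) :
    Transcendental L (x : FL) := by
  rw [transcendental_iff]
  intro q hq
  by_contra hne
  have h := eq_zero_of_sum_aeval_mul G x (fun _ : Unit => (1 : G.O))
    (fun p hp => by
      intro i
      have : aeval (G.red x) (p ()) = 0 := by simpa using hp
      cases i
      exact (transcendental_iff.mp hx) _ this)
    (fun _ => q) (by simpa using hq)
  exact hne (h ())

/-- From polynomial independence to linear independence over `L[x]`. -/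
theorem linearIndependent_adjoin_of_aeval {K : Type*} [Field K] {F : Type*} [Field F] [Algebra K F]
    {ι : Type*} [Fintype ι] (x : F) (z : ι → F)
    (h : ∀ p : ι → K[X], ∑ i, aeval x (p i) * z i = 0 → ∀ i, p i = 0) :
    LinearIndependent (Algebra.adjoin K {x}) z := by
  rw [Fintype.linearIndependent_iff]
  intro g hg
  have hmem : ∀ i, ∃ p : K[X], aeval x p = (g i : F) := by
    intro i
    have h1 : (g i : F) ∈ (aeval (R := K) x).range := by
      rw [← Algebra.adjoin_singleton_eq_range_aeval]
      exact (g i).2
    exact h1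
  choose p hp using hmem
  have h0 := h p (by
    rw [← hg]
    refine Finset.sum_congr rfl fun i _ => ?_
    rw [hp, Subalgebra.smul_def, smul_eq_mul])
  intro i
  apply Subtype.ext
  rw [← hp, h0 i, map_zero]
  rfl

open scoped IntermediateField.algebraAdjoinAdjoin in
/-- From polynomial independence to linear independence over `L(x)`. -/
theorem linearIndependent_field_of_aeval {K : Type*} [Field K] {F : Type*} [Field F] [Algebra K F]
    {ι : Type*} [Fintype ι] (x : F) (z : ι → F)
    (h : ∀ p : ι → K[X], ∑ i, aeval x (p i) * z i = 0 → ∀ i, p i = 0) :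
    LinearIndependent K⟮x⟯ z :=
  (LinearIndependent.iff_fractionRing (Algebra.adjoin K {x}) K⟮x⟯).mp
    (linearIndependent_adjoin_of_aeval x z h)

open scoped IntermediateField.algebraAdjoinAdjoin in
/-- From linear independence over `K(x)`, `x` transcendental, to polynomial independence. -/
theorem aeval_eq_zero_of_linearIndependent_field {K : Type*} [Field K] {F : Type*} [Field F]
    [Algebra K F] {ι : Type*} [Fintype ι] (x : F) (hx : Transcendental K x) (z : ι → F)
    (hz : LinearIndependent K⟮x⟯ z) (p : ι → K[X]) (hp : ∑ i, aeval x (p i) * z i = 0) :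
    ∀ i, p i = 0 := by
  have h1 : LinearIndependent (Algebra.adjoin K {x}) z :=
    (LinearIndependent.iff_fractionRing (Algebra.adjoin K {x}) K⟮x⟯).mpr hz
  rw [Fintype.linearIndependent_iff] at h1
  have hmem : ∀ i, aeval x (p i) ∈ Algebra.adjoin K {x} := by
    intro i
    rw [Algebra.adjoin_singleton_eq_range_aeval]
    exact ⟨p i, rfl⟩
  have h2 := h1 (fun i => ⟨aeval x (p i), hmem i⟩) (by
    rw [← hp]
    refine Finset.sum_congr rfl fun i _ => ?_
    rw [Subalgebra.smul_def, smul_eq_mul])
  intro i
  have h3 : aeval x (p i) = 0 := congrArg Subtype.val (h2 i)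
  exact (transcendental_iff.mp hx) _ h3

end Fermat.Agent.S37.Deuring.GaussLemmas
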