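import Mathlib
import Fermat.Agent.S37.Deuring.Core
import Fermat.Agent.S37.Deuring.GaussLemmas

/-!
# PROJECT I (S37), slice I-1D: the orthonormal-basis property `(OB)`

For a Gauss datum `G` (see `Deuring/Core.lean`) we prove `G.OB`, i.e.
`ell D ≤ dim_k (reduction of L(D) ∩ O)`, from an "orthonormal basis":

* `exists_echelon`: echelon lemma over a valuation ring, in coordinates: every subspace
  `W ≤ L^ι` of dimension `m` contains `m` vectors with coordinates in `A` whose reductions are
  `k`-linearly independent;
* `exists_red_independent`: transport along a family `w : ι → O` with `k`-independent reductions;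
* `ob_of_onb`: `(OB)` from `x, u i ∈ O` with (i) the monomials `x̄ ^ e * ū i` independent over `k`
  and (ii) every `f : FL` is, up to a denominator in `L[x]`, an `L[x]`-combination of the `u i`;
* `ob_of_basis`: `(OB)` from `ū i` independent over `k(x̄)` and `u i` spanning `FL` over `L(x)`.
-/

set_option autoImplicit false
set_option linter.unusedSectionVars false

noncomputable section

namespace Fermat.Agent.S37.Deuring.OrthoBasis
open Fermat.Agent.S37.Deuring.Core Fermat.Agent.S37.Deuring.GaussLemmas
open AlgebraicCurve Polynomial Fermat.Agent.S18.NonSpecial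

variable {L : Type*} [Field L] {k : Type*} [Field k]
variable {A : ValuationSubring L} (π : A →+* k)

/-- **Echelon lemma** over a valuation ring, in coordinates. -/
theorem exists_echelon {ι : Type*} [Fintype ι] :
    ∀ (m : ℕ) (W : Submodule L (ι → L)), Module.finrank L W = m →
      ∃ g : Fin m → ι → A, (∀ j, (fun i => ((g j i : A) : L)) ∈ W) ∧
        LinearIndependent k fun j => fun i => π (g j i) := by
  classical
  intro m
  induction m with
  | zero =>
    intro W _
    exact ⟨fun j => j.elim0, fun j => j.elim0, linearIndependent_empty_type⟩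
  | succ m ih =>
    intro W hW
    have hne : W ≠ ⊥ := by
      rintro rfl
      rw [finrank_bot] at hW
      omega
    obtain ⟨v, hvW, hv0⟩ := Submodule.exists_mem_ne_zero_of_ne_bot hne
    obtain ⟨i₁, hi₁⟩ : ∃ i, v i ≠ 0 := by
      by_contra h
      push Not at h
      exact hv0 (funext h)
    obtain ⟨i₀, -, h0, hA⟩ :=
      GaussDatum.exists_max_const (A := A) Finset.univ v ⟨i₁, Finset.mem_univ _, hi₁⟩
    set v' : ι → A := fun i => ⟨v i / v i₀, hA i (Finset.mem_univ _)⟩ with hv'
    have hv'W : (fun i => ((v' i : A) : L)) ∈ W := by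
      have : (fun i => ((v' i : A) : L)) = (v i₀)⁻¹ • v := by
        funext i
        simp [hv', div_eq_inv_mul]
      rw [this]
      exact W.smul_mem _ hvW
    have hv'0 : v' i₀ = 1 := Subtype.ext (div_self h0)
    set W₁ : Submodule L (ι → L) := W ⊓ LinearMap.ker (LinearMap.proj i₀ : (ι → L) →ₗ[L] L)
      with hW₁
    have hfin : FiniteDimensional L W := inferInstance
    have hW₁rank : Module.finrank L W₁ = m := by
      set φ : W →ₗ[L] L := (LinearMap.proj i₀ : (ι → L) →ₗ[L] L).domRestrict W with hφ
      have h1 := LinearMap.finrank_range_add_finrank_ker φ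
      have hsurj : LinearMap.range φ = ⊤ := by
        rw [LinearMap.range_eq_top]
        intro c
        refine ⟨⟨c • (fun i => ((v' i : A) : L)), W.smul_mem _ hv'W⟩, ?_⟩
        simp [hφ, hv'0]
      have h2 : Module.finrank L (LinearMap.range φ) = 1 := by
        rw [hsurj, finrank_top, Module.finrank_self]
      have h3 : (LinearMap.ker φ).map W.subtype = W₁ := by
        ext w
        simp only [Submodule.mem_map, LinearMap.mem_ker, Submodule.subtype_apply, hW₁,
          Submodule.mem_inf, hφ, LinearMap.domRestrict_apply]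
        constructor
        · rintro ⟨y, hy, rfl⟩
          exact ⟨y.2, hy⟩
        · rintro ⟨hw, hw'⟩
          exact ⟨⟨w, hw⟩, hw', rfl⟩
      have h4 := Submodule.finrank_map_subtype_eq W (LinearMap.ker φ)
      rw [h3] at h4
      omega
    obtain ⟨g', hg'W, hg'li⟩ := ih W₁ hW₁rank
    have hg'0 : ∀ j, g' j i₀ = 0 := by
      intro j
      have h2 : (fun i => ((g' j i : A) : L)) ∈
          LinearMap.ker (LinearMap.proj i₀ : (ι → L) →ₗ[L] L) := (hg'W j).2
      rw [LinearMap.mem_ker, LinearMap.proj_apply] at h2
      exact Subtype.ext h2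
    refine ⟨Fin.cons v' g', ?_, ?_⟩
    · intro j
      refine Fin.cases ?_ (fun j => ?_) j
      · simpa using hv'W
      · simpa using (hg'W j).1
    · have hfun : (fun j => fun i => π ((Fin.cons v' g' : Fin (m + 1) → ι → A) j i))
          = Fin.cons (fun i => π (v' i)) (fun j => fun i => π (g' j i)) := by
        funext j
        refine Fin.cases ?_ (fun j => ?_) j
        · simp
        · simp
      rw [hfun, linearIndependent_finCons]
      refine ⟨hg'li, fun hmem => ?_⟩
      have hle : Submodule.span k (Set.range fun j => fun i => π (g' j i))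
          ≤ LinearMap.ker (LinearMap.proj i₀ : (ι → k) →ₗ[k] k) := by
        rw [Submodule.span_le]
        rintro _ ⟨j, rfl⟩
        simp [hg'0 j]
      have := hle hmem
      rw [LinearMap.mem_ker, LinearMap.proj_apply, hv'0, map_one] at this
      exact one_ne_zero this


variable {π}
variable {FL : Type*} [Field FL] [Algebra L FL] {Fk : Type*} [Field Fk] [Algebra k Fk]
variable (G : GaussDatum A π FL Fk)

/-- **Transport** of the echelon lemma, finite family. -/
theorem exists_red_independent_fintype {ι : Type*} [Fintype ι] (w : ι → G.O)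
    (hw : LinearIndependent k fun i => G.red (w i)) (W : Submodule L FL)
    (hW : W ≤ Submodule.span L (Set.range fun i => ((w i : G.O) : FL))) :
    ∃ g : Fin (Module.finrank L W) → G.O, (∀ j, ((g j : G.O) : FL) ∈ W) ∧
      LinearIndependent k fun j => G.red (g j) := by
  classical
  set Φ : (ι → L) →ₗ[L] FL := Fintype.linearCombination L fun i => ((w i : G.O) : FL) with hΦ
  have hΦinj : Function.Injective Φ :=
    linearIndependent_iff_injective_fintypeLinearCombination.mp (G.linearIndependent_of_red w hw)
  have hrange : W ≤ LinearMap.range Φ := by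
    rw [hΦ, Fintype.range_linearCombination]
    exact hW
  have hrank : Module.finrank L (W.comap Φ) = Module.finrank L W := by
    have h1 := (Submodule.equivMapOfInjective Φ hΦinj (W.comap Φ)).finrank_eq
    rw [Submodule.map_comap_eq_of_le hrange] at h1
    exact h1
  obtain ⟨g₀, hg₀W, hg₀li⟩ := exists_echelon π (Module.finrank L W) (W.comap Φ) hrank
  refine ⟨fun j => ∑ i, G.const (g₀ j i) * w i, fun j => ?_, ?_⟩
  · have hcoe : ((∑ i, G.const (g₀ j i) * w i : G.O) : FL) = Φ fun i => ((g₀ j i : A) : L) := by
      rw [hΦ, Fintype.linearCombination_apply, ← ValuationSubring.subtype_apply, map_sum]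
      refine Finset.sum_congr rfl fun i _ => ?_
      rw [Algebra.smul_def]
      rfl
    rw [hcoe]
    exact hg₀W j
  · set Φk : (ι → k) →ₗ[k] Fk := Fintype.linearCombination k fun i => G.red (w i) with hΦk
    have hΦkinj : Function.Injective Φk :=
      linearIndependent_iff_injective_fintypeLinearCombination.mp hw
    have hfun : (fun j => G.red (∑ i, G.const (g₀ j i) * w i))
        = Φk ∘ fun j => fun i => π (g₀ j i) := by
      funext j
      rw [Function.comp_apply, hΦk, Fintype.linearCombination_apply, map_sum]
      refine Finset.sum_congr rfl fun i _ => ?_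
      rw [map_mul, GaussDatum.red_const, Algebra.smul_def]
    rw [hfun]
    exact hg₀li.map' Φk (LinearMap.ker_eq_bot.mpr hΦkinj)

/-- **Transport** of the echelon lemma, arbitrary family. -/
theorem exists_red_independent {ι : Type*} (w : ι → G.O)
    (hw : LinearIndependent k fun i => G.red (w i)) (W : Submodule L FL) [FiniteDimensional L W]
    (hW : W ≤ Submodule.span L (Set.range fun i => ((w i : G.O) : FL))) :
    ∃ g : Fin (Module.finrank L W) → G.O, (∀ j, ((g j : G.O) : FL) ∈ W) ∧
      LinearIndependent k fun j => G.red (g j) := by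
  classical
  have hfg : W.FG := (Submodule.fg_iff_finiteDimensional W).mpr inferInstance
  have hcomp := (Submodule.fg_iff_compact W).mp hfg
  rw [Submodule.span_range_eq_iSup] at hW
  obtain ⟨T, hT⟩ :=
    CompleteLattice.IsCompactElement.exists_finset_of_le_iSup (Submodule L FL) hcomp _ hW
  refine exists_red_independent_fintype G (fun t : T => w t.1)
    (hw.comp _ Subtype.val_injective) W (hT.trans ?_)
  refine iSup₂_le fun i hi => ?_
  rw [Submodule.span_singleton_le_iff_mem]
  exact Submodule.subset_span ⟨⟨i, hi⟩, rfl⟩


/-! ### `(OB)` from an orthonormal basis over `L(x)` -/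

/-- the `L[x]`-span of the family `u` -/
def polySpan {ι : Type*} (x : FL) (u : ι → FL) : Submodule L FL :=
  Submodule.span L (Set.range fun p : ι × ℕ => x ^ p.2 * u p.1)

theorem mul_mem_polySpan {ι : Type*} (x : FL) (u : ι → FL) {m : FL}
    (hm : m ∈ polySpan (L := L) x u) : x * m ∈ polySpan (L := L) x u := by
  unfold polySpan at hm ⊢
  induction hm using Submodule.span_induction with
  | mem m hm =>
    obtain ⟨⟨i, e⟩, rfl⟩ := hm
    refine Submodule.subset_span ⟨(i, e + 1), ?_⟩
    simp only [pow_succ]
    ring
  | zero => rw [mul_zero]; exact Submodule.zero_mem _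
  | add a b _ _ ha hb => rw [mul_add]; exact Submodule.add_mem _ ha hb
  | smul c a _ ha => rw [mul_smul_comm]; exact Submodule.smul_mem _ _ ha

theorem pow_mul_mem_polySpan {ι : Type*} (x : FL) (u : ι → FL) {m : FL}
    (hm : m ∈ polySpan (L := L) x u) (e : ℕ) : x ^ e * m ∈ polySpan (L := L) x u := by
  induction e with
  | zero => simpa using hm
  | succ e ih =>
    rw [pow_succ', mul_assoc]
    exact mul_mem_polySpan x u ih

theorem aeval_mul_mem_polySpan {ι : Type*} (x : FL) (u : ι → FL) (q : L[X]) {m : FL}
    (hm : m ∈ polySpan (L := L) x u) : aeval x q * m ∈ polySpan (L := L) x u := by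
  induction q using Polynomial.induction_on' with
  | add p q hp hq => rw [map_add, add_mul]; exact Submodule.add_mem _ hp hq
  | monomial e c =>
    rw [aeval_monomial, mul_assoc, ← Algebra.smul_def]
    exact Submodule.smul_mem _ _ (pow_mul_mem_polySpan x u hm e)

/-- **(OB) from an orthonormal basis.**  If `x, u i ∈ O` are such that the monomials
`x̄ ^ e * ū i` are `k`-linearly independent and every element of `FL` is, up to a nonzero
denominator in `L[x]`, an `L[x]`-combination of the `u i`, then `(OB)` holds. -/
theorem ob_of_onb {ι : Type*} (x : G.O) (u : ι → G.O) (hx : Transcendental k (G.red x))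
    (hi : LinearIndependent k fun p : ι × ℕ => G.red x ^ p.2 * G.red (u p.1))
    (hii : ∀ f : FL, ∃ q : L[X], q ≠ 0 ∧
      aeval (x : FL) q * f ∈ polySpan (L := L) (x : FL) fun i => ((u i : G.O) : FL)) :
    G.OB := by
  classical
  intro D _
  by_cases hfin : Module.Finite L (riemannRochSpace D)
  swap
  · rw [ell, Module.finrank_of_not_finite hfin]
    exact Nat.zero_le _
  set M₀ : Submodule L FL := polySpan (L := L) (x : FL) fun i => ((u i : G.O) : FL) with hM₀
  -- common denominator
  have hden : ∃ q : L[X], q ≠ 0 ∧ ∀ f ∈ riemannRochSpace D, aeval (x : FL) q * f ∈ M₀ := by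
    obtain ⟨S, hS⟩ := (Submodule.fg_iff_finiteDimensional (riemannRochSpace D)).mpr hfin
    have key : ∀ S : Finset FL, ∃ q : L[X], q ≠ 0 ∧ ∀ f ∈ S, aeval (x : FL) q * f ∈ M₀ := by
      intro S
      induction S using Finset.induction_on with
      | empty => exact ⟨1, one_ne_zero, by simp⟩
      | insert a S _ ih =>
        obtain ⟨q, hq, hqS⟩ := ih
        obtain ⟨qa, hqa, ha'⟩ := hii a
        refine ⟨qa * q, mul_ne_zero hqa hq, fun f hf => ?_⟩
        rw [Finset.mem_insert] at hf
        rcases hf with rfl | hf
        · rw [map_mul, mul_comm (aeval (x : FL) qa), mul_assoc]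
          exact aeval_mul_mem_polySpan _ _ q ha'
        · rw [map_mul, mul_assoc]
          exact aeval_mul_mem_polySpan _ _ qa (hqS f hf)
    obtain ⟨q, hq, hqS⟩ := key S
    refine ⟨q, hq, ?_⟩
    have hle : Submodule.span L (S : Set FL)
        ≤ M₀.comap (LinearMap.mulLeft L (aeval (x : FL) q)) :=
      Submodule.span_le.mpr fun f hf => hqS f hf
    intro f hf
    rw [← hS] at hf
    exact hle hf
  obtain ⟨q, hq, hqV⟩ := hden
  -- normalise the denominator to a Gauss unit
  obtain ⟨c, hc, Q, hQ, hQπ⟩ := exists_scale_one (A := A) (π := π) q hq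
  set y : G.O := evalO G x Q with hy
  have hycoe : (y : FL) = algebraMap L FL c * aeval (x : FL) q := by
    rw [hy, coe_evalO, hQ, map_mul, aeval_C]
  have hyred : G.red y ≠ 0 := by
    rw [hy, red_evalO]
    exact fun h => hQπ ((transcendental_iff.mp hx) _ h)
  have hyu : IsUnit y := by
    by_contra h
    exact hyred ((G.red_eq_zero_iff y).mpr h)
  have hy0 : (y : FL) ≠ 0 := by
    intro h
    apply hyred
    have : y = 0 := Subtype.ext h
    rw [this, map_zero]
  set W : Submodule L FL := (riemannRochSpace D).map (LinearMap.mulLeft L (y : FL)) with hW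
  have hinj : Function.Injective (LinearMap.mulLeft L (y : FL)) := by
    intro a b h
    simp only [LinearMap.mulLeft_apply] at h
    exact mul_left_cancel₀ hy0 h
  have hrank : Module.finrank L W = ell D :=
    (Submodule.equivMapOfInjective _ hinj (riemannRochSpace D)).finrank_eq.symm
  have hWM : W ≤ M₀ := by
    rintro _ ⟨f, hf, rfl⟩
    rw [LinearMap.mulLeft_apply, hycoe, mul_assoc, ← Algebra.smul_def]
    exact Submodule.smul_mem _ _ (hqV f hf)
  have hWfin : FiniteDimensional L W := inferInstance
  set w : ι × ℕ → G.O := fun p => x ^ p.2 * u p.1 with hw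
  have hwli : LinearIndependent k fun p => G.red (w p) := by
    have : (fun p => G.red (w p)) = fun p : ι × ℕ => G.red x ^ p.2 * G.red (u p.1) := by
      funext p
      rw [hw, map_mul, map_pow]
    rw [this]
    exact hi
  have hWspan : W ≤ Submodule.span L (Set.range fun p => ((w p : G.O) : FL)) := hWM
  obtain ⟨g, hgW, hgli⟩ := exists_red_independent G w hwli W hWspan
  -- divide by the unit `y`
  set a : G.O := ((hyu.unit⁻¹ : G.Oˣ) : G.O) with ha
  have hay : a * y = 1 := by
    rw [ha]
    exact hyu.val_inv_mul
  have hared : G.red a * G.red y = 1 := by rw [← map_mul, hay, map_one]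
  have hared0 : G.red a ≠ 0 := left_ne_zero_of_mul_eq_one hared
  have haycoe : (a : FL) * (y : FL) = 1 := congrArg Subtype.val hay
  have hmem : ∀ j, G.red (a * g j) ∈ G.redSpace D := by
    intro j
    refine ⟨a * g j, ?_, rfl⟩
    obtain ⟨f, hf, hfg⟩ := hgW j
    rw [LinearMap.mulLeft_apply] at hfg
    have : ((a * g j : G.O) : FL) = f := by
      rw [show ((a * g j : G.O) : FL) = (a : FL) * (g j : FL) from rfl, ← hfg, ← mul_assoc,
        haycoe, one_mul]
    rw [this]
    exact hf
  have hli2 : LinearIndependent k fun j => G.red (a * g j) := by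
    have : (fun j => G.red (a * g j)) = (LinearMap.mulLeft k (G.red a)) ∘ fun j => G.red (g j) := by
      funext j
      rw [Function.comp_apply, LinearMap.mulLeft_apply, map_mul]
    rw [this]
    refine hgli.map' _ (LinearMap.ker_eq_bot.mpr ?_)
    intro b b' h
    simp only [LinearMap.mulLeft_apply] at h
    exact mul_left_cancel₀ hared0 h
  have := G.finite_redSpace D
  let g' : Fin (Module.finrank L W) → G.redSpace D := fun j => ⟨G.red (a * g j), hmem j⟩
  have hg' : LinearIndependent k g' := by
    apply LinearIndependent.of_comp (G.redSpace D).subtype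
    exact hli2
  have := hg'.fintype_card_le_finrank
  rw [Fintype.card_fin, hrank] at this
  exact this


/-! ### Converters: from bases over `k(x̄)` and `L(x)` -/

open IntermediateField in
/-- powers of a transcendental element are linearly independent -/
theorem linearIndependent_pow_of_transcendental {K : Type*} [Field K] {F : Type*} [Field F]
    [Algebra K F] {y : F} (hy : Transcendental K y) : LinearIndependent K fun e : ℕ => y ^ e := by
  have h1 := (Polynomial.basisMonomials K).linearIndependent
  have h2 := h1.map' (aeval (R := K) y).toLinearMap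
    (LinearMap.ker_eq_bot.mpr (transcendental_iff_injective.mp hy))
  have : ((aeval (R := K) y).toLinearMap ∘ fun e => Polynomial.basisMonomials K e)
      = fun e : ℕ => y ^ e := by
    funext e
    rw [Function.comp_apply, Polynomial.coe_basisMonomials]
    simp [aeval_monomial]
  rwa [this] at h2

open IntermediateField in
/-- `(i)` from linear independence over `k(x̄)` -/
theorem linearIndependent_monomials {K : Type*} [Field K] {F : Type*} [Field F] [Algebra K F]
    {ι : Type*} {y : F} (hy : Transcendental K y) (z : ι → F) (hz : LinearIndependent K⟮y⟯ z) :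
    LinearIndependent K fun p : ι × ℕ => y ^ p.2 * z p.1 := by
  have hb : LinearIndependent K fun e : ℕ => (AdjoinSimple.gen K y) ^ e := by
    apply LinearIndependent.of_comp (K⟮y⟯.val.toLinearMap)
    have : (K⟮y⟯.val.toLinearMap ∘ fun e : ℕ => (AdjoinSimple.gen K y) ^ e)
        = fun e : ℕ => y ^ e := by
      funext e
      simp
    rw [this]
    exact linearIndependent_pow_of_transcendental hy
  have h := linearIndependent_smul hb hz
  have h2 := h.comp (fun p : ι × ℕ => (p.2, p.1)) (fun a b hab => by
    simp only [Prod.mk.injEq] at hab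
    exact Prod.ext hab.2 hab.1)
  have : ((fun p : ℕ × ι => (AdjoinSimple.gen K y) ^ p.1 • z p.2) ∘ fun p : ι × ℕ => (p.2, p.1))
      = fun p : ι × ℕ => y ^ p.2 * z p.1 := by
    funext p
    simp only [Function.comp_apply]
    rw [IntermediateField.smul_def, smul_eq_mul]
    simp
  rwa [this] at h2


open IntermediateField in
/-- `(ii)` from a spanning family over `L(x)` -/
theorem exists_denominator {K : Type*} [Field K] {F : Type*} [Field F] [Algebra K F]
    {ι : Type*} [Fintype ι] (x : F) (u : ι → F)
    (hspan : ⊤ ≤ Submodule.span K⟮x⟯ (Set.range u)) (f : F) :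
    ∃ q : K[X], q ≠ 0 ∧ aeval x q * f ∈ polySpan (L := K) x u := by
  classical
  have hf : f ∈ Submodule.span K⟮x⟯ (Set.range u) := hspan Submodule.mem_top
  obtain ⟨c, hc⟩ := (Submodule.mem_span_range_iff_exists_fun K⟮x⟯).mp hf
  have hrs : ∀ i, ∃ r s : K[X], aeval x s ≠ 0 ∧ ((c i : K⟮x⟯) : F) * aeval x s = aeval x r := by
    intro i
    obtain ⟨r, s, hrs⟩ := (IntermediateField.mem_adjoin_simple_iff K ((c i : K⟮x⟯) : F)).mp (c i).2
    by_cases hs : aeval x s = 0
    · refine ⟨0, 1, by simp, ?_⟩
      rw [hrs, hs, div_zero]
      simp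
    · exact ⟨r, s, hs, by rw [hrs, div_mul_cancel₀ _ hs]⟩
  choose r s hs hrs using hrs
  have hs0 : ∀ i, s i ≠ 0 := fun i h => hs i (by rw [h, map_zero])
  refine ⟨∏ i, s i, Finset.prod_ne_zero_iff.mpr fun i _ => hs0 i, ?_⟩
  rw [← hc, Finset.mul_sum]
  refine Submodule.sum_mem _ fun i _ => ?_
  have hu : u i ∈ polySpan (L := K) x u :=
    Submodule.subset_span ⟨(i, 0), by simp⟩
  have : aeval x (∏ j, s j) * (c i • u i)
      = aeval x (r i * ∏ j ∈ Finset.univ.erase i, s j) * u i := by
    rw [IntermediateField.smul_def, smul_eq_mul, ← Finset.mul_prod_erase Finset.univ s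
      (Finset.mem_univ i), map_mul, map_mul, ← hrs i]
    ring
  rw [this]
  exact aeval_mul_mem_polySpan x u _ hu

open IntermediateField in
/-- **(OB) from bases**: `x, u i ∈ O` such that the `ū i` are linearly independent over `k(x̄)`
and the `u i` span `FL` over `L(x)`. -/
theorem ob_of_basis {ι : Type*} [Fintype ι] (x : G.O) (u : ι → G.O)
    (hx : Transcendental k (G.red x))
    (hi : LinearIndependent k⟮G.red x⟯ fun i => G.red (u i))
    (hii : ⊤ ≤ Submodule.span L⟮(x : FL)⟯ (Set.range fun i => ((u i : G.O) : FL))) : G.OB :=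
  ob_of_onb G x u hx (linearIndependent_monomials hx _ hi)
    (exists_denominator (x : FL) (fun i => ((u i : G.O) : FL)) hii)

end Fermat.Agent.S37.Deuring.OrthoBasis
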