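import Mathlib
import Fermat.Agent.S37.Deuring.OrthoBasis
import Fermat.Agent.S37.Deuring.FundIneq

/-!
# PROJECT I (S37), slice I-1D: the hypotheses of Deuring's theorem in ONE call

`Core.Hyp G gL gk` from: Riemann's theorem on both sides, `gL ≤ gk`, surjectivity of the reduction
map, and an orthonormal basis (`OrthoBasis.ob_of_basis` + `FundIneq.fi`).  Consequences restated:
`gk = gL` and the place map with `r_* div u = div (red u)`.
-/

set_option autoImplicit false
set_option linter.style.haveILetI false

noncomputable section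

namespace Fermat.Agent.S37.Deuring.HypOfBasis

open AlgebraicCurve IntermediateField Fermat.Agent.S18.NonSpecial Fermat.Agent.S37.Deuring.Core
  Fermat.Agent.S24.FF

universe u₁ u₂ u₃ u₄

variable {L : Type u₁} [Field L] {k : Type u₂} [Field k]
variable {A : ValuationSubring L} {π : A →+* k}
variable {FL : Type u₃} [Field FL] [Algebra L FL] {Fk : Type u₄} [Field Fk] [Algebra k Fk]

/-- All hypotheses of Deuring's theorem from an orthonormal basis and a surjective reduction. -/
theorem hyp_of_basis (G : GaussDatum A π FL Fk) [IsAlgClosed L] [CharZero L] {x0 : FL}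
    (hx0 : IsFF L x0) {gL gk : ℕ} (HL : RiemannHyp L FL gL) (HK : RiemannHyp k Fk gk)
    (hg : gL ≤ gk) (hsurj : Function.Surjective G.red)
    {ι : Type*} [Fintype ι] (x : G.O) (u : ι → G.O)
    (hx : Transcendental k (G.red x))
    (hi : LinearIndependent k⟮G.red x⟯ fun i => G.red (u i))
    (hii : ⊤ ≤ Submodule.span L⟮((x : G.O) : FL)⟯ (Set.range fun i => ((u i : G.O) : FL))) :
    Hyp G gL gk :=
  ⟨HL, HK, hg, Fermat.Agent.S37.Deuring.OrthoBasis.ob_of_basis G x u hx hi hii,
    Fermat.Agent.S37.Deuring.FundIneq.fi G hx0 HK hsurj⟩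

/-- If `red` is onto, `ū` is transcendental and `FL` is finite over `L(u)`, then `Fk` is finite
over `k(ū)`. -/
theorem finite_of_surjective (G : GaussDatum A π FL Fk) (u : G.O)
    (htr : Transcendental k (G.red u)) [FiniteDimensional L⟮((u : G.O) : FL)⟯ FL]
    (hsurj : Function.Surjective G.red) : Module.Finite k⟮G.red u⟯ Fk := by
  classical
  rw [← Module.rank_lt_aleph0_iff]
  refine lt_of_le_of_lt (b := ((Module.finrank L⟮((u : G.O) : FL)⟯ FL : ℕ) : Cardinal)) ?_
    (Cardinal.natCast_lt_aleph0)
  apply rank_le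
  intro s hs
  choose f hf using fun i : s => hsurj (i : Fk)
  have hred : ∀ q : s → Polynomial k,
      ∑ i, Polynomial.aeval (G.red u) (q i) * G.red (f i) = 0 → ∀ i, q i = 0 := by
    intro q hq i
    have hmem : ∀ i, Polynomial.aeval (G.red u) (q i) ∈ k⟮G.red u⟯ := fun i =>
      IntermediateField.algebra_adjoin_le_adjoin k {G.red u}
        (by rw [Algebra.adjoin_singleton_eq_range_aeval]; exact ⟨q i, rfl⟩)
    have h1 : ∑ i : s, (⟨Polynomial.aeval (G.red u) (q i), hmem i⟩ : k⟮G.red u⟯) • (i : Fk)
        = 0 := by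
      rw [← hq]
      refine Finset.sum_congr rfl fun i _ => ?_
      rw [hf i]
      rfl
    have h2 := Fintype.linearIndependent_iff.mp hs _ h1 i
    have h3 : Polynomial.aeval (G.red u) (q i) = 0 := congrArg Subtype.val h2
    exact transcendental_iff.mp htr _ h3
  have := Fermat.Agent.S37.Deuring.FundIneq.card_le_finrank (fun i => ((f i : G.O) : FL))
    (Fermat.Agent.S37.Deuring.FundIneq.poly_eq_zero_of_red G u f hred)
  simpa using this

/-- The degree equality `[Fk : k(x̄)] = [FL : L(x)]` (both equal to the size of the basis) from an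
orthonormal basis and a surjective reduction. -/
theorem finrank_eq_of_basis (G : GaussDatum A π FL Fk) (hsurj : Function.Surjective G.red)
    {ι : Type*} [Fintype ι] (x : G.O) (u : ι → G.O)
    (hx : Transcendental k (G.red x))
    (hi : LinearIndependent k⟮G.red x⟯ fun i => G.red (u i))
    (hii : ⊤ ≤ Submodule.span L⟮((x : G.O) : FL)⟯ (Set.range fun i => ((u i : G.O) : FL))) :
    Module.finrank k⟮G.red x⟯ Fk = Fintype.card ι ∧
      Module.finrank L⟮((x : G.O) : FL)⟯ FL = Fintype.card ι := by
  classical
  have hfg : (⊤ : Submodule L⟮((x : G.O) : FL)⟯ FL).FG := by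
    rw [← top_le_iff.mp hii]
    exact Submodule.fg_span (Set.finite_range _)
  haveI : FiniteDimensional L⟮((x : G.O) : FL)⟯ FL := Module.finite_def.mpr hfg
  haveI := finite_of_surjective G x hx hsurj
  have h1 : Module.finrank L⟮((x : G.O) : FL)⟯ FL ≤ Fintype.card ι := by
    have := finrank_range_le_card (R := L⟮((x : G.O) : FL)⟯)
      (fun i => ((u i : G.O) : FL))
    rw [Set.finrank, top_le_iff.mp hii, finrank_top] at this
    exact this
  have h2 : Fintype.card ι ≤ Module.finrank k⟮G.red x⟯ Fk := hi.fintype_card_le_finrank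
  have h3 := Fermat.Agent.S37.Deuring.FundIneq.finrank_le_finrank G x hx hsurj
  omega

end Fermat.Agent.S37.Deuring.HypOfBasis
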