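import Mathlib
import Fermat.Agent.S18.NonSpecial
import Fermat.Agent.S18.A.RiemannBasic

/-!
# PROJECT I (S37), slice I-R: the rigidity lemma

Let `Ψ : Div(F) →+ Div(F')` be additive, zero on principal divisors, *bounded*
(`|Ψ(P)(Q)| ≤ C` for all places `P`, `Q`) and *separating* (for every `Q₁` there is a place
`P₂` with `Ψ(P₂)(Q₁) = 0`).  If Riemann's theorem holds for `F`, then `Ψ = 0`.

Proof: if `c₁ := Ψ(P₁)(Q₁) ≠ 0`, pick `P₂` with `Ψ(P₂)(Q₁) = 0` and, by Riemann, `u ≠ 0` with
`div u = (m - g) P₁ - m P₂ + E`, `E ≥ 0` of degree `g`; evaluating `0 = Ψ(div u)` at `Q₁` gives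
`|(m - g) c₁| ≤ g C`, false for `m` large.

Corollaries: the version with a finite exceptional set, and the uniqueness of place maps.
-/

set_option autoImplicit false
set_option linter.unusedSectionVars false

noncomputable section

namespace Fermat.Agent.S37.Deuring.Rigidity

open AlgebraicCurve Fermat.Agent.S18.NonSpecial

variable {K : Type*} [Field K] {F : Type*} [Field F] [Algebra K F]
variable {K' : Type*} [Field K'] {F' : Type*} [Field F'] [Algebra K' F']

/-- bound of `Ψ` on effective divisors -/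
theorem abs_apply_le_of_effective (hdeg : ∀ v : Place K F, v.deg = 1)
    (Ψ : Divisor K F →+ Divisor K' F') (C : ℤ)
    (hbound : ∀ (P : Place K F) (Q : Place K' F'), |Ψ (Finsupp.single P 1) Q| ≤ C)
    (Q : Place K' F') : ∀ E : Divisor K F, 0 ≤ E → |Ψ E Q| ≤ Divisor.degree E * C := by
  refine Fermat.Agent.S18.A.Riemann.effective_induction hdeg ?_ ?_
  · simp
  · intro E v hE ih
    rw [map_add, Finsupp.add_apply, map_add, Divisor.degree_single, hdeg v]
    have h1 := hbound v Q
    have h2 := abs_add_le (Ψ E Q) (Ψ (Finsupp.single v 1) Q)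
    have : Divisor.degree E * C + C = (Divisor.degree E + (1 : ℤ) * ((1 : ℕ) : ℤ)) * C := by
      push_cast; ring
    rw [← this]
    linarith

/-- **Rigidity lemma.** -/
theorem eq_zero_of_bounded {g : ℕ} (hR : RiemannHyp K F g) [HasPrincipalDivisors K F]
    (Ψ : Divisor K F →+ Divisor K' F')
    (hprin : ∀ D ∈ Divisor.principal (K := K) (F := F), Ψ D = 0) (C : ℤ)
    (hbound : ∀ (P : Place K F) (Q : Place K' F'), |Ψ (Finsupp.single P 1) Q| ≤ C)
    (hsep : ∀ Q₁ : Place K' F', ∃ P₂ : Place K F, Ψ (Finsupp.single P₂ 1) Q₁ = 0) :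
    ∀ P : Place K F, Ψ (Finsupp.single P 1) = 0 := by
  classical
  intro P₁
  ext Q₁
  rw [Finsupp.zero_apply]
  by_contra hc₁
  set c₁ := Ψ (Finsupp.single P₁ 1) Q₁ with hc₁def
  obtain ⟨P₂, hP₂⟩ := hsep Q₁
  have hC0 : 0 ≤ C := (abs_nonneg _).trans (hbound P₁ Q₁)
  -- the divisor `D = m P₂ - (m - g) P₁` of degree `g`
  set m : ℤ := g + g * C + 1 with hm
  set D : Divisor K F := Finsupp.single P₂ m - Finsupp.single P₁ (m - g) with hD
  have hdegD : Divisor.degree D = g := by
    rw [hD, map_sub, Divisor.degree_single, Divisor.degree_single, hR.deg_one, hR.deg_one]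
    push_cast; ring
  have hell : 0 < ell D := by
    have := riemann_ineq hR D
    rw [hdegD] at this
    omega
  have := hR.finite D
  have hnt : Nontrivial (riemannRochSpace D) := Module.nontrivial_of_finrank_pos hell
  obtain ⟨u, hu⟩ := exists_ne (0 : riemannRochSpace D)
  have hu0 : (u : F) ≠ 0 := fun h0 => hu (Subtype.ext h0)
  obtain ⟨Du, hDu, hdegDu⟩ := HasPrincipalDivisors.exists_divisor (K := K) (u : F) hu0
  -- `E := div u + D ≥ 0` of degree `g`
  have hE0 : 0 ≤ Du + D := by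
    rw [Finsupp.le_def]
    intro v
    have h1 := ((mem_riemannRochSpace_iff.mp u.2) v).resolve_left hu0
    rw [Finsupp.add_apply, hDu v]
    simp only [Finsupp.coe_zero, Pi.zero_apply]
    omega
  have hdegE : Divisor.degree (Du + D) = g := by rw [map_add, hdegDu, hdegD, zero_add]
  have hΨDu : Ψ Du = 0 := hprin Du ⟨(u : F), hu0, hDu⟩
  have hΨE : Ψ (Du + D) Q₁ = - ((m - g) * c₁) := by
    rw [map_add, hΨDu, zero_add, hD, map_sub, Finsupp.sub_apply]
    have h1 : Ψ (Finsupp.single P₂ m) = m • Ψ (Finsupp.single P₂ 1) := by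
      rw [← map_zsmul, Finsupp.smul_single, smul_eq_mul, mul_one]
    have h2 : Ψ (Finsupp.single P₁ (m - g)) = (m - g) • Ψ (Finsupp.single P₁ 1) := by
      rw [← map_zsmul, Finsupp.smul_single, smul_eq_mul, mul_one]
    rw [h1, h2, Finsupp.smul_apply, Finsupp.smul_apply, hP₂, smul_zero, zero_sub, smul_eq_mul]
  have hb := abs_apply_le_of_effective hR.deg_one Ψ C hbound Q₁ (Du + D) hE0
  rw [hΨE, hdegE, abs_neg, abs_mul] at hb
  have hmg : m - g = g * C + 1 := by rw [hm]; ring
  rw [hmg] at hb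
  have h1 : (1 : ℤ) ≤ |c₁| := Int.one_le_abs hc₁
  have h2 : (0 : ℤ) ≤ g * C := mul_nonneg (Int.natCast_nonneg g) hC0
  have h3 : |((g : ℤ) * C + 1)| = g * C + 1 := abs_of_nonneg (by omega)
  rw [h3] at hb
  nlinarith

/-- **Rigidity lemma**, full conclusion. -/
theorem eq_zero {g : ℕ} (hR : RiemannHyp K F g) [HasPrincipalDivisors K F]
    (Ψ : Divisor K F →+ Divisor K' F')
    (hprin : ∀ D ∈ Divisor.principal (K := K) (F := F), Ψ D = 0) (C : ℤ)
    (hbound : ∀ (P : Place K F) (Q : Place K' F'), |Ψ (Finsupp.single P 1) Q| ≤ C)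
    (hsep : ∀ Q₁ : Place K' F', ∃ P₂ : Place K F, Ψ (Finsupp.single P₂ 1) Q₁ = 0) : Ψ = 0 := by
  have h := eq_zero_of_bounded hR Ψ hprin C hbound hsep
  refine AddMonoidHom.ext fun D => ?_
  induction D using Finsupp.induction_linear with
  | zero => simp
  | add D E hD hE => rw [map_add, hD, hE]; simp
  | single P n =>
    have : Finsupp.single P n = n • Finsupp.single P (1 : ℤ) := by
      rw [Finsupp.smul_single, smul_eq_mul, mul_one]
    rw [this, map_zsmul, h P]
    simp

/-- **Rigidity with a finite exceptional set**: if `Ψ` kills principal divisors, is bounded, and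
vanishes at all places outside a finite set, then `Ψ = 0`. -/
theorem eq_zero_of_finite {g : ℕ} (hR : RiemannHyp K F g) [HasPrincipalDivisors K F]
    (Ψ : Divisor K F →+ Divisor K' F')
    (hprin : ∀ D ∈ Divisor.principal (K := K) (F := F), Ψ D = 0) (C : ℤ)
    (hbound : ∀ (P : Place K F) (Q : Place K' F'), |Ψ (Finsupp.single P 1) Q| ≤ C)
    (S : Set (Place K F)) (hS : S.Finite)
    (hout : ∀ P : Place K F, P ∉ S → Ψ (Finsupp.single P 1) = 0) : Ψ = 0 := by
  refine eq_zero hR Ψ hprin C hbound fun Q₁ => ?_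
  have := hR.infinite
  obtain ⟨P₂, hP₂⟩ := hS.infinite_compl.nonempty
  exact ⟨P₂, by rw [hout P₂ hP₂]; rfl⟩

/-- **Uniqueness of place maps**: two place maps which agree on principal divisors and can be
separated (for every `Q₁` there is `P₂` with `r₁ P₂ ≠ Q₁` and `r₂ P₂ ≠ Q₁`, e.g. through the
values of a function) are equal. -/
theorem placeMap_ext {g : ℕ} (hR : RiemannHyp K F g) [HasPrincipalDivisors K F]
    (r₁ r₂ : Place K F → Place K' F')
    (hprin : ∀ D ∈ Divisor.principal (K := K) (F := F),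
      Finsupp.mapDomain r₁ D = Finsupp.mapDomain r₂ D)
    (hsep : ∀ Q₁ : Place K' F', ∃ P₂ : Place K F, r₁ P₂ ≠ Q₁ ∧ r₂ P₂ ≠ Q₁) :
    r₁ = r₂ := by
  classical
  set Ψ : Divisor K F →+ Divisor K' F' :=
    Finsupp.mapDomain.addMonoidHom r₁ - Finsupp.mapDomain.addMonoidHom r₂ with hΨ
  have hΨapp : ∀ D, Ψ D = Finsupp.mapDomain r₁ D - Finsupp.mapDomain r₂ D := fun D => rfl
  have hsingle : ∀ P Q, Ψ (Finsupp.single P 1) Q
      = (if r₁ P = Q then 1 else 0) - (if r₂ P = Q then 1 else 0) := by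
    intro P Q
    rw [hΨapp, Finsupp.mapDomain_single, Finsupp.mapDomain_single, Finsupp.sub_apply,
      Finsupp.single_apply, Finsupp.single_apply]
  have h0 : Ψ = 0 := by
    refine eq_zero hR Ψ (fun D hD => ?_) 1 (fun P Q => ?_) (fun Q₁ => ?_)
    · rw [hΨapp, hprin D hD, sub_self]
    · rw [hsingle]
      split_ifs <;> simp
    · obtain ⟨P₂, h1, h2⟩ := hsep Q₁
      exact ⟨P₂, by rw [hsingle, if_neg h1, if_neg h2, sub_zero]⟩
  funext P
  have h1 := congrArg (fun E : Divisor K' F' => E (r₁ P)) (show Ψ (Finsupp.single P 1) = 0 by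
    rw [h0]; rfl)
  simp only [hsingle, if_true, Finsupp.zero_apply] at h1
  by_contra hne
  rw [if_neg (fun h => hne h.symm)] at h1
  simp at h1

end Fermat.Agent.S37.Deuring.Rigidity
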