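import Mathlib
import Fermat.Agent.S37.Deuring.OrthoBasis

/-!
# PROJECT I (S37), slice I-1D: orthonormal bases, general finite-dimensional subspaces

`OrthoBasis.ob_of_onb` for an arbitrary finite-dimensional `L`-subspace `W ≤ FL` instead of a
Riemann-Roch space: `W ∩ O` contains `finrank W` elements with `k`-independent reductions.
-/

set_option autoImplicit false
set_option linter.unusedSectionVars false

noncomputable section

namespace Fermat.Agent.S37.Deuring.OrthoBasis2

open Fermat.Agent.S37.Deuring.Core Fermat.Agent.S37.Deuring.GaussLemmas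
open Fermat.Agent.S37.Deuring.OrthoBasis
open AlgebraicCurve Polynomial IntermediateField

variable {L : Type*} [Field L] {k : Type*} [Field k]
variable {A : ValuationSubring L} {π : A →+* k}
variable {FL : Type*} [Field FL] [Algebra L FL] {Fk : Type*} [Field Fk] [Algebra k Fk]
variable (G : GaussDatum A π FL Fk)

/-- a common denominator for a finite-dimensional subspace -/
theorem exists_common_denominator {ι : Type*} (x : FL) (u : ι → FL)
    (hii : ∀ f : FL, ∃ q : L[X], q ≠ 0 ∧ aeval x q * f ∈ polySpan (L := L) x u)
    (W : Submodule L FL) [FiniteDimensional L W] :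
    ∃ q : L[X], q ≠ 0 ∧ ∀ f ∈ W, aeval x q * f ∈ polySpan (L := L) x u := by
  classical
  obtain ⟨S, hS⟩ := (Submodule.fg_iff_finiteDimensional W).mpr inferInstance
  have key : ∀ S : Finset FL, ∃ q : L[X], q ≠ 0 ∧
      ∀ f ∈ S, aeval x q * f ∈ polySpan (L := L) x u := by
    intro S
    induction S using Finset.induction_on with
    | empty => exact ⟨1, one_ne_zero, by simp⟩
    | insert a S _ ih =>
      obtain ⟨q, hq, hqS⟩ := ih
      obtain ⟨qa, hqa, ha'⟩ := hii a
      refine ⟨qa * q, mul_ne_zero hqa hq, fun f hf => ?_⟩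
      rw [Finset.mem_insert] at hf
      rcases hf with rfl | hf
      · rw [map_mul, mul_comm (aeval x qa), mul_assoc]
        exact aeval_mul_mem_polySpan _ _ q ha'
      · rw [map_mul, mul_assoc]
        exact aeval_mul_mem_polySpan _ _ qa (hqS f hf)
  obtain ⟨q, hq, hqS⟩ := key S
  refine ⟨q, hq, ?_⟩
  have hle : Submodule.span L (S : Set FL)
      ≤ (polySpan (L := L) x u).comap (LinearMap.mulLeft L (aeval x q)) :=
    Submodule.span_le.mpr fun f hf => hqS f hf
  intro f hf
  rw [← hS] at hf
  exact hle hf

/-- **Orthonormal bases, general subspace.**  With `x, u i ∈ O` as in `OrthoBasis.ob_of_onb`, every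
finite-dimensional `L`-subspace `W` of `FL` contains `finrank W` elements of `O` whose reductions
are `k`-linearly independent. -/
theorem exists_red_independent_of_onb {ι : Type*} (x : G.O) (u : ι → G.O)
    (hx : Transcendental k (G.red x))
    (hi : LinearIndependent k fun p : ι × ℕ => G.red x ^ p.2 * G.red (u p.1))
    (hii : ∀ f : FL, ∃ q : L[X], q ≠ 0 ∧
      aeval (x : FL) q * f ∈ polySpan (L := L) (x : FL) fun i => ((u i : G.O) : FL))
    (W : Submodule L FL) [FiniteDimensional L W] :
    ∃ g : Fin (Module.finrank L W) → G.O, (∀ j, ((g j : G.O) : FL) ∈ W) ∧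
      LinearIndependent k fun j => G.red (g j) := by
  classical
  set M₀ : Submodule L FL := polySpan (L := L) (x : FL) fun i => ((u i : G.O) : FL) with hM₀
  obtain ⟨q, hq, hqV⟩ := exists_common_denominator (x : FL) (fun i => ((u i : G.O) : FL)) hii W
  obtain ⟨c, hc, Q, hQ, hQπ⟩ := exists_scale_one (A := A) (π := π) q hq
  set y : G.O := evalO G x Q with hy
  have hycoe : (y : FL) = algebraMap L FL c * aeval (x : FL) q := by
    rw [hy, coe_evalO, hQ, map_mul, aeval_C]
  have hyred : G.red y ≠ 0 := by
    rw [hy, red_evalO]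
    exact fun h => hQπ ((transcendental_iff.mp hx) _ h)
  have hyu : IsUnit y := by
    by_contra h
    exact hyred ((G.red_eq_zero_iff y).mpr h)
  have hy0 : (y : FL) ≠ 0 := by
    intro h
    apply hyred
    have : y = 0 := Subtype.ext h
    rw [this, map_zero]
  set W' : Submodule L FL := W.map (LinearMap.mulLeft L (y : FL)) with hW'
  have hinj : Function.Injective (LinearMap.mulLeft L (y : FL)) := by
    intro a b h
    simp only [LinearMap.mulLeft_apply] at h
    exact mul_left_cancel₀ hy0 h
  have hrank : Module.finrank L W' = Module.finrank L W :=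
    (Submodule.equivMapOfInjective _ hinj W).finrank_eq.symm
  have hWM : W' ≤ M₀ := by
    rintro _ ⟨f, hf, rfl⟩
    rw [LinearMap.mulLeft_apply, hycoe, mul_assoc, ← Algebra.smul_def]
    exact Submodule.smul_mem _ _ (hqV f hf)
  have hWfin : FiniteDimensional L W' := inferInstance
  set w : ι × ℕ → G.O := fun p => x ^ p.2 * u p.1 with hw
  have hwli : LinearIndependent k fun p => G.red (w p) := by
    have : (fun p => G.red (w p)) = fun p : ι × ℕ => G.red x ^ p.2 * G.red (u p.1) := by
      funext p
      rw [hw, map_mul, map_pow]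
    rw [this]
    exact hi
  have hWspan : W' ≤ Submodule.span L (Set.range fun p => ((w p : G.O) : FL)) := hWM
  obtain ⟨g, hgW, hgli⟩ := exists_red_independent G w hwli W' hWspan
  set a : G.O := ((hyu.unit⁻¹ : G.Oˣ) : G.O) with ha
  have hay : a * y = 1 := by
    rw [ha]
    exact hyu.val_inv_mul
  have hared : G.red a * G.red y = 1 := by rw [← map_mul, hay, map_one]
  have hared0 : G.red a ≠ 0 := left_ne_zero_of_mul_eq_one hared
  have haycoe : (a : FL) * (y : FL) = 1 := congrArg Subtype.val hay
  refine ⟨fun j => a * g (Fin.cast hrank.symm j), fun j => ?_, ?_⟩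
  · obtain ⟨f, hf, hfg⟩ := hgW (Fin.cast hrank.symm j)
    rw [LinearMap.mulLeft_apply] at hfg
    have : ((a * g (Fin.cast hrank.symm j) : G.O) : FL) = f := by
      rw [show ((a * g (Fin.cast hrank.symm j) : G.O) : FL)
          = (a : FL) * (g (Fin.cast hrank.symm j) : FL) from rfl, ← hfg, ← mul_assoc,
        haycoe, one_mul]
    rw [this]
    exact hf
  · have hli1 : LinearIndependent k fun j : Fin (Module.finrank L W) =>
        G.red (g (Fin.cast hrank.symm j)) :=
      hgli.comp _ (Fin.cast_injective _)
    have : (fun j : Fin (Module.finrank L W) => G.red (a * g (Fin.cast hrank.symm j)))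
        = (LinearMap.mulLeft k (G.red a)) ∘
          fun j : Fin (Module.finrank L W) => G.red (g (Fin.cast hrank.symm j)) := by
      funext j
      rw [Function.comp_apply, LinearMap.mulLeft_apply, map_mul]
    rw [this]
    refine hli1.map' _ (LinearMap.ker_eq_bot.mpr ?_)
    intro b b' h
    simp only [LinearMap.mulLeft_apply] at h
    exact mul_left_cancel₀ hared0 h

/-- the same from bases over `k(x̄)` and `L(x)` -/
theorem exists_red_independent_of_basis {ι : Type*} [Fintype ι] (x : G.O) (u : ι → G.O)
    (hx : Transcendental k (G.red x))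
    (hi : LinearIndependent k⟮G.red x⟯ fun i => G.red (u i))
    (hii : ⊤ ≤ Submodule.span L⟮(x : FL)⟯ (Set.range fun i => ((u i : G.O) : FL)))
    (W : Submodule L FL) [FiniteDimensional L W] :
    ∃ g : Fin (Module.finrank L W) → G.O, (∀ j, ((g j : G.O) : FL) ∈ W) ∧
      LinearIndependent k fun j => G.red (g j) :=
  exists_red_independent_of_onb G x u hx (linearIndependent_monomials hx _ hi)
    (exists_denominator (x : FL) (fun i => ((u i : G.O) : FL)) hii) W

/-- dimension form: the reduction of `W ∩ O` has dimension at least `finrank W` -/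
theorem finrank_le_of_basis {ι : Type*} [Fintype ι] (x : G.O) (u : ι → G.O)
    (hx : Transcendental k (G.red x))
    (hi : LinearIndependent k⟮G.red x⟯ fun i => G.red (u i))
    (hii : ⊤ ≤ Submodule.span L⟮(x : FL)⟯ (Set.range fun i => ((u i : G.O) : FL)))
    (W : Submodule L FL) [FiniteDimensional L W] (V : Submodule k Fk) [FiniteDimensional k V]
    (hV : ∀ f : G.O, (f : FL) ∈ W → G.red f ∈ V) :
    Module.finrank L W ≤ Module.finrank k V := by
  obtain ⟨g, hgW, hgli⟩ := exists_red_independent_of_basis G x u hx hi hii W
  let g' : Fin (Module.finrank L W) → V := fun j => ⟨G.red (g j), hV _ (hgW j)⟩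
  have hg' : LinearIndependent k g' := by
    apply LinearIndependent.of_comp V.subtype
    exact hgli
  have := hg'.fintype_card_le_finrank
  rwa [Fintype.card_fin] at this

end Fermat.Agent.S37.Deuring.OrthoBasis2
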