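import Mathlib
import Fermat.Agent.S37.Gauss.Datum
import Fermat.Agent.S37.Deuring.HypOfBasis
import Fermat.Agent.S18.A.RiemannFk
import Fermat.Agent.S18.B.SeparableFk

/-!
# PROJECT I (S37), slice I-1D: Deuring's hypotheses for the Gauss datum of `X₀(N)` at `ℓ ∤ N`

`G := Gauss.Datum.gaussDatum N A hA hℓN` (hypothesis-free Gauss datum of `ℚ̄(X₀(N))` at a valuation
subring `A` of `ℚ̄` over `ℓ ∤ N`).  From the compatible bases `Gauss.HasRep.exists_bases` we get

* `exists_basis_O` : an orthonormal basis in the shape of `OrthoBasis.ob_of_basis`;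
* `ob : G.OB`, `fi : G.FI` — unconditionally;
* `hyp HL HK hg : Core.Hyp G gL gk` — only Riemann's theorem on both sides and `gL ≤ gk` are left;
* `finrank_eq : [F_L : ℚ̄(j)] = [F_k : k(j̄)]`, the reduction-hypothesis-free degree equality.
-/

set_option autoImplicit false
set_option linter.unusedSectionVars false
set_option linter.style.haveILetI false

noncomputable section

namespace Fermat.Agent.S37.Deuring.HypX0

open AlgebraicCurve IntermediateField ModularCurve IsLocalRing
open Fermat.Agent.S18.NonSpecial Fermat.Agent.S37.Deuring.Core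
open Fermat.Agent.S18.A

/-! ### transport between the `RatFunc K`-structure `X ↦ x` and the `K(x)`-structure -/

section Transport

variable {K : Type*} [Field K] {F : Type*} [Field F] [Algebra K F] {x : F}
  (hx : Transcendental K x)

theorem exists_evalRat_eq (c : K⟮x⟯) : ∃ r : RatFunc K, Chart.evalRat hx r = (c : F) :=
  ⟨(Chart.ratEquivAdjoin hx (mem_adjoin_simple_self K x) (Chart.evalRat_X hx)).symm c,
    Chart.evalRat_ratEquivAdjoin_symm hx _ _ c⟩

theorem linearIndependent_adjoin {ι : Type*} [Fintype ι] (v : ι → F)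
    (h : ∀ g : ι → RatFunc K, ∑ i, Chart.evalRat hx (g i) * v i = 0 → ∀ i, g i = 0) :
    LinearIndependent K⟮x⟯ v := by
  rw [Fintype.linearIndependent_iff]
  intro c hc i
  choose r hr using fun i => exists_evalRat_eq hx (c i)
  have h1 := h r (by
    rw [← hc]
    refine Finset.sum_congr rfl fun i _ => ?_
    rw [hr i]
    rfl)
  apply Subtype.ext
  rw [← hr i, h1 i, map_zero]
  rfl

theorem top_le_span_adjoin {ι : Type*} [Fintype ι] (v : ι → F)
    (h : ∀ f : F, ∃ g : ι → RatFunc K, f = ∑ i, Chart.evalRat hx (g i) * v i) :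
    ⊤ ≤ Submodule.span K⟮x⟯ (Set.range v) := by
  intro f _
  obtain ⟨g, rfl⟩ := h f
  refine Submodule.sum_mem _ fun i _ => ?_
  have h1 : Chart.evalRat hx (g i) * v i = (⟨Chart.evalRat hx (g i),
      Chart.evalRat_mem_adjoin hx (mem_adjoin_simple_self K x) (g i)⟩ : K⟮x⟯) • v i := rfl
  rw [h1]
  exact Submodule.smul_mem _ _ (Submodule.subset_span ⟨i, rfl⟩)

end Transport

/-! ### the Gauss datum of `X₀(N)` -/

section Main

open Fermat.Agent.S37.Gauss Fermat.Agent.S37.Gauss.Datum
open Fermat.Agent.S18.GaussFromH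
open Fermat.Agent.S24.DegreeAlg (jgen)
open Fermat.Agent.S18.B.FkBasics (jk transcendental_jk)

local notation "Kb" => AlgebraicClosure ℚ

set_option synthInstance.maxHeartbeats 400000

variable {ℓ : ℕ} [Fact ℓ.Prime] {N : ℕ} [NeZero N] {A : ValuationSubring Kb}
variable (hA : A.LiesOverPrime ℓ) (hℓN : ¬ ℓ ∣ N)

/-- `j` as an element of the Gauss valuation ring -/
def jO : ↥(gaussDatum N A hA hℓN).O := ⟨jgen N, jgen_mem_O hA hℓN⟩

theorem coe_jO : ((jO hA hℓN : ↥(gaussDatum N A hA hℓN).O) : ↥(modularFunctionFieldBar N)) = jgen N :=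
  rfl

theorem red_jO : (gaussDatum N A hA hℓN).red (jO hA hℓN) = jk (ResidueField ↥A) N :=
  red_jgen hA hℓN

theorem transcendental_red_jO :
    Transcendental (ResidueField ↥A) ((gaussDatum N A hA hℓN).red (jO hA hℓN)) := by
  rw [red_jO]
  exact transcendental_jk _ N

/-- **The orthonormal basis** of `F_L / ℚ̄(j)` inside the Gauss valuation ring. -/
theorem exists_basis_O :
    ∃ (n : ℕ) (u : Fin n → ↥(gaussDatum N A hA hℓN).O),
      LinearIndependent (ResidueField ↥A)⟮jk (ResidueField ↥A) N⟯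
        (fun i => (gaussDatum N A hA hℓN).red (u i)) ∧
      ⊤ ≤ Submodule.span Kb⟮jgen N⟯
        (Set.range fun i => ((u i : ↥(gaussDatum N A hA hℓN).O) : ↥(modularFunctionFieldBar N))) := by
  classical
  haveI : CharP (ResidueField ↥A) ℓ := Fermat.Agent.S18.ResidueBasics.charP_residueField A hA
  haveI : IsAlgClosed (ResidueField ↥A) := Fermat.Agent.S18.ResidueBasics.isAlgClosed_residueField A
  letI : Algebra (ZMod ℓ) (ResidueField ↥A) := ZMod.algebra _ ℓ
  obtain ⟨n, t, bL, bk, hbL, hbk⟩ := HasRep.exists_bases ℓ N (ResidueField ↥A) hℓN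
  choose α β hβ hLαβ hKαβ using fun i => HasRep.exists_rep_OwFull N A (residue ↥A) hA hℓN (t i)
  have hmem : ∀ i, Fermat.Agent.S18.C.Forms.embBar N
      ((t i : ↥(Fermat.Agent.S28.GaussFull.OwFull ℓ N)) : ↥(modularFunctionFieldFull N)) ∈
        (gaussDatum N A hA hℓN).O := fun i =>
    (mem_O_iff hA hℓN).mpr ⟨α i, β i, hβ i, hLαβ i⟩
  have hred : ∀ i, (gaussDatum N A hA hℓN).red ⟨_, hmem i⟩ = bk i := by
    intro i
    have h := red_eq hA hℓN ⟨_, hmem i⟩ (hβ i) (hLαβ i)
    rw [h, hbk i, div_eq_iff (hβ i)]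
    exact (hKαβ i).symm
  refine ⟨n, fun i => ⟨_, hmem i⟩, ?_, ?_⟩
  · have h1 : (fun i => (gaussDatum N A hA hℓN).red ⟨_, hmem i⟩) = fun i => bk i :=
      funext hred
    rw [h1]
    apply linearIndependent_adjoin (transcendental_jk (ResidueField ↥A) N)
    intro g hg
    exact Fintype.linearIndependent_iff.mp bk.linearIndependent g hg
  · have h2 : (fun i => ((⟨_, hmem i⟩ : ↥(gaussDatum N A hA hℓN).O) :
        ↥(modularFunctionFieldBar N))) = fun i => bL i := funext fun i => (hbL i).symm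
    rw [h2]
    apply top_le_span_adjoin (Fermat.Agent.S18.C.ModularInst.transcendental_jgen N)
    intro f
    exact ⟨fun i => bL.repr f i, (bL.sum_repr f).symm⟩

theorem linearIndependent_congr_adjoin {K : Type*} [Field K] {F : Type*} [Field F] [Algebra K F]
    {y y' : F} (h : y = y') {ι : Type*} {v : ι → F} (hv : LinearIndependent K⟮y'⟯ v) :
    LinearIndependent K⟮y⟯ v := by
  subst h
  exact hv

theorem top_le_span_congr_adjoin {K : Type*} [Field K] {F : Type*} [Field F] [Algebra K F]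
    {y y' : F} (h : y = y') {S : Set F} (hv : ⊤ ≤ Submodule.span K⟮y'⟯ S) :
    ⊤ ≤ Submodule.span K⟮y⟯ S := by
  subst h
  exact hv

/-- the orthonormal basis, in the binder shape of `OrthoBasis.ob_of_basis` -/
theorem exists_basis_O' :
    ∃ (n : ℕ) (u : Fin n → ↥(gaussDatum N A hA hℓN).O),
      LinearIndependent (ResidueField ↥A)⟮(gaussDatum N A hA hℓN).red (jO hA hℓN)⟯
        (fun i => (gaussDatum N A hA hℓN).red (u i)) ∧
      ⊤ ≤ Submodule.span Kb⟮((jO hA hℓN : ↥(gaussDatum N A hA hℓN).O) :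
          ↥(modularFunctionFieldBar N))⟯
        (Set.range fun i => ((u i : ↥(gaussDatum N A hA hℓN).O) : ↥(modularFunctionFieldBar N))) := by
  obtain ⟨n, u, hi, hii⟩ := exists_basis_O hA hℓN
  exact ⟨n, u, linearIndependent_congr_adjoin (red_jO hA hℓN) hi,
    top_le_span_congr_adjoin (coe_jO hA hℓN) hii⟩

/-- **(OB)** for the Gauss datum of `X₀(N)`, unconditionally. -/
theorem ob : (gaussDatum N A hA hℓN).OB := by
  obtain ⟨n, u, hi, hii⟩ := exists_basis_O' hA hℓN
  exact Fermat.Agent.S37.Deuring.OrthoBasis.ob_of_basis _ (jO hA hℓN) u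
    (transcendental_red_jO hA hℓN) hi hii

/-- Riemann's theorem for `F_k`, `k` the residue field of `A`. -/
theorem exists_riemannHyp_k :
    ∃ g : ℕ, RiemannHyp (ResidueField ↥A) ↥(modularFunctionFieldFullC (ResidueField ↥A) N) g := by
  haveI : IsAlgClosed (ResidueField ↥A) := Fermat.Agent.S18.ResidueBasics.isAlgClosed_residueField A
  exact RiemannFk.exists_riemannHyp_Fk' (ResidueField ↥A) N
    (Fermat.Agent.S18.B.SeparableFk.isSeparable_jk (ResidueField ↥A) N)

/-- **(FI)** for the Gauss datum of `X₀(N)`, unconditionally. -/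
theorem fi : (gaussDatum N A hA hℓN).FI := by
  obtain ⟨gk, HK⟩ := exists_riemannHyp_k (N := N) (A := A)
  exact Fermat.Agent.S37.Deuring.FundIneq.fi _ (Instances.isFF_jgen N) HK (red_surjective hA hℓN)

/-- **All hypotheses of Deuring's theorem** for `X₀(N)` at `ℓ ∤ N`, except `g_L ≤ g_k`. -/
theorem hyp {gL gk : ℕ} (HL : RiemannHyp Kb ↥(modularFunctionFieldBar N) gL)
    (HK : RiemannHyp (ResidueField ↥A) ↥(modularFunctionFieldFullC (ResidueField ↥A) N) gk)
    (hg : gL ≤ gk) : Hyp (gaussDatum N A hA hℓN) gL gk :=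
  ⟨HL, HK, hg, ob hA hℓN, fi hA hℓN⟩

include hA hℓN in
/-- **The degree equality** `[F_L : ℚ̄(j)] = [F_k : k(j̄)]`, without any reduction hypothesis. -/
theorem finrank_eq :
    Module.finrank Kb⟮jgen N⟯ ↥(modularFunctionFieldBar N) =
      Module.finrank (ResidueField ↥A)⟮jk (ResidueField ↥A) N⟯
        ↥(modularFunctionFieldFullC (ResidueField ↥A) N) := by
  obtain ⟨n, u, hi, hii⟩ := exists_basis_O' hA hℓN
  have h := Fermat.Agent.S37.Deuring.HypOfBasis.finrank_eq_of_basis _ (red_surjective hA hℓN)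
    (jO hA hℓN) u (transcendental_red_jO hA hℓN) hi hii
  have h1 : Module.finrank Kb⟮jgen N⟯ ↥(modularFunctionFieldBar N) = Fintype.card (Fin n) := h.2
  have h2 : Module.finrank (ResidueField ↥A)⟮jk (ResidueField ↥A) N⟯
      ↥(modularFunctionFieldFullC (ResidueField ↥A) N) = Fintype.card (Fin n) := by
    have h3 := h.1
    rw [red_jO] at h3
    exact h3
  rw [h1, h2]

end Main

end Fermat.Agent.S37.Deuring.HypX0
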